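import Mathlib.AlgebraicGeometry.EllipticCurve.Affine.Point
import Mathlib.RingTheory.Valuation.ValuationSubring

set_option autoImplicit false

namespace Fermat.Agent.S05

open WeierstrassCurve

variable {L : Type*} [Field L]

/-- The two-torsion cubic `4x³ + b₂x² + 2b₄x + b₆` evaluated at `x`. -/
def twoTors (W : WeierstrassCurve L) (x : L) : L :=
  4 * x ^ 3 + W.b₂ * x ^ 2 + 2 * W.b₄ * x + W.b₆

/-- `β = f'(x0)/4` where `f` is the two-torsion cubic: the product of the differences of `x0`
with the other two roots. -/
def beta (W : WeierstrassCurve L) (x0 : L) : L :=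
  (12 * x0 ^ 2 + 2 * W.b₂ * x0 + 2 * W.b₄) / 4

/-- The `b₂`-invariant of the curve translated by `x0`. -/
def b2' (W : WeierstrassCurve L) (x0 : L) : L :=
  W.b₂ + 12 * x0

/-- The two-torsion cubic in the shifted coordinate `t = x - x0` (when `x0` is a root). -/
def fxi (W : WeierstrassCurve L) (x0 : L) (t : L) : L :=
  4 * t ^ 3 + b2' W x0 * t ^ 2 + 4 * beta W x0 * t

/-- The shifted `x`-coordinate `x - x0` of a point (junk value `0` at the point at infinity). -/
def xi (W : Affine L) (x0 : L) : W.Point → L
  | .zero => 0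
  | .some x _ _ => x - x0

/-- `2y + a₁x + a₃` (junk value `0` at the point at infinity). -/
def eta (W : Affine L) : W.Point → L
  | .zero => 0
  | .some x y _ => 2 * y + W.a₁ * x + W.a₃

/-- A rational-valued order function attached to a valuation subring. -/
structure OrdFun (A : ValuationSubring L) where
  /-- the order function (junk value at `0`) -/
  ord : L → ℚ
  ord_mul : ∀ x y : L, x ≠ 0 → y ≠ 0 → ord (x * y) = ord x + ord y
  le_iff : ∀ x y : L, x ≠ 0 → y ≠ 0 → (A.valuation x ≤ A.valuation y ↔ ord y ≤ ord x)

end Fermat.Agent.S05
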