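import Mathlib
import Fermat.Prelude.Def_FLTPrelim_Ramification
import Fermat.Prelude.Def_FLTPrelim_GaloisRep
import Fermat.Agent.S05.Defs

set_option autoImplicit false

namespace Fermat.Agent.S05

open WeierstrassCurve WeierstrassCurve.Affine WeierstrassCurve.Affine.Point

local notation "K" => AlgebraicClosure ℚ

section Action

variable (E : WeierstrassCurve ℚ)

theorem twoTors_baseChange (r : ℚ) :
    twoTors (E⁄K) (algebraMap ℚ K r) = algebraMap ℚ K (twoTors E r) := by
  simp only [twoTors, Affine.baseChange, WeierstrassCurve.baseChange, map_b₂, map_b₄, map_b₆,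
    map_add, map_mul, map_pow, map_ofNat]

theorem beta_baseChange (r : ℚ) :
    beta (E⁄K) (algebraMap ℚ K r) = algebraMap ℚ K (beta E r) := by
  simp only [beta, Affine.baseChange, WeierstrassCurve.baseChange, map_b₂, map_b₄,
    map_add, map_mul, map_pow, map_ofNat, map_div₀]

theorem b2'_baseChange (r : ℚ) :
    b2' (E⁄K) (algebraMap ℚ K r) = algebraMap ℚ K (b2' E r) := by
  simp only [b2', Affine.baseChange, WeierstrassCurve.baseChange, map_b₂,
    map_add, map_mul, map_ofNat]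

theorem delta_baseChange : (E⁄K).Δ = algebraMap ℚ K E.Δ := by
  simp only [Affine.baseChange, WeierstrassCurve.baseChange, map_Δ]

theorem smul_ne_zero_of_ne_zero (σ : K ≃ₐ[ℚ] K) {P : (E⁄K).Point} (hP : P ≠ 0) : σ • P ≠ 0 := by
  intro h
  apply hP
  have h' : Point.map (W' := E) σ.toAlgHom P = Point.map (W' := E) σ.toAlgHom 0 := by
    rw [← algEquiv_smul_def, h]; rfl
  exact Point.map_injective _ h'

theorem xi_smul (σ : K ≃ₐ[ℚ] K) (r : ℚ) (P : (E⁄K).Point) :
    xi (E⁄K) (algebraMap ℚ K r) (σ • P) = σ (xi (E⁄K) (algebraMap ℚ K r) P) := by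
  rcases P with _ | ⟨x, y, h⟩
  · change xi (E⁄K) (algebraMap ℚ K r) (Point.zero) = σ (xi (E⁄K) (algebraMap ℚ K r) Point.zero)
    simp only [xi, _root_.map_zero]
  · change (σ x - algebraMap ℚ K r) = σ (x - algebraMap ℚ K r)
    rw [map_sub, AlgEquiv.commutes]

theorem eta_smul (σ : K ≃ₐ[ℚ] K) (P : (E⁄K).Point) :
    eta (E⁄K) (σ • P) = σ (eta (E⁄K) P) := by
  rcases P with _ | ⟨x, y, h⟩
  · change eta (E⁄K) (Point.zero) = σ (eta (E⁄K) Point.zero)
    simp only [eta, _root_.map_zero]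
  · change 2 * σ y + (E⁄K).a₁ * σ x + (E⁄K).a₃ = σ (2 * y + (E⁄K).a₁ * x + (E⁄K).a₃)
    have h1 : (E⁄K).a₁ = algebraMap ℚ K E.a₁ := rfl
    have h3 : (E⁄K).a₃ = algebraMap ℚ K E.a₃ := rfl
    rw [h1, h3]
    simp only [map_add, map_mul, map_ofNat, AlgEquiv.commutes]

/-- the action of `σ` as an additive endomorphism of the group of points -/
noncomputable def smulAddHom (σ : K ≃ₐ[ℚ] K) : (E⁄K).Point →+ (E⁄K).Point :=
  DistribSMul.toAddMonoidHom _ σ

theorem smulAddHom_apply (σ : K ≃ₐ[ℚ] K) (P : (E⁄K).Point) : smulAddHom E σ P = σ • P := rfl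

end Action

end Fermat.Agent.S05
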