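import Mathlib
import Fermat.Prelude.Def_FLTPrelim_FreyPackage
import Fermat.Agent.S05.Defs

set_option autoImplicit false

namespace Fermat.Agent.S05

namespace Frey

theorem b₂_eq (P : FreyPackage) :
    P.freyCurve.b₂ = (P.b : ℚ) ^ P.p - (P.a : ℚ) ^ P.p := by
  simp [FreyPackage.freyCurve, WeierstrassCurve.b₂]
  ring

theorem b₄_eq (P : FreyPackage) :
    P.freyCurve.b₄ = -((P.a : ℚ) ^ P.p * (P.b : ℚ) ^ P.p) / 8 := by
  simp [FreyPackage.freyCurve, WeierstrassCurve.b₄]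
  ring

theorem b₆_eq (P : FreyPackage) : P.freyCurve.b₆ = 0 := by
  simp [FreyPackage.freyCurve, WeierstrassCurve.b₆]

theorem c_pow_eq (P : FreyPackage) :
    (P.c : ℚ) ^ P.p = (P.a : ℚ) ^ P.p + (P.b : ℚ) ^ P.p := by
  exact_mod_cast P.hFLT.symm

theorem Δ_eq (P : FreyPackage) :
    P.freyCurve.Δ = (((P.a ^ P.p * P.b ^ P.p * P.c ^ P.p) ^ 2 : ℤ) : ℚ) / 256 := by
  have hc := c_pow_eq P
  simp [FreyPackage.freyCurve, WeierstrassCurve.Δ, WeierstrassCurve.b₂, WeierstrassCurve.b₄,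
    WeierstrassCurve.b₆, WeierstrassCurve.b₈]
  rw [hc]
  ring

theorem not_dvd_of_gcd {x y : ℤ} (h : gcd x y = 1) {q : ℕ} (hq : q.Prime)
    (hx : (q : ℤ) ∣ x) (hy : (q : ℤ) ∣ y) : False := by
  have hqZ : Prime (q : ℤ) := Nat.prime_iff_prime_int.mp hq
  have h1 : (q : ℤ) ∣ gcd x y := dvd_gcd hx hy
  rw [h] at h1
  exact hqZ.not_isUnit (isUnit_of_dvd_one h1)

theorem exists_pow_mul {q : ℕ} (hq : q.Prime) {c : ℤ} (hc0 : c ≠ 0) (hc : (q : ℤ) ∣ c) :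
    ∃ (e : ℕ) (u : ℤ), 0 < e ∧ ¬ (q : ℤ) ∣ u ∧ c = (q : ℤ) ^ e * u := by
  have hfin : FiniteMultiplicity (q : ℤ) c :=
    Int.finiteMultiplicity_iff.mpr ⟨by simpa using hq.ne_one, hc0⟩
  obtain ⟨u, hu, hnu⟩ := hfin.exists_eq_pow_mul_and_not_dvd
  refine ⟨multiplicity (q : ℤ) c, u, ?_, hnu, hu⟩
  rcases Nat.eq_zero_or_pos (multiplicity (q : ℤ) c) with h0 | h0
  · exfalso
    rw [h0, pow_zero, one_mul] at hu
    exact hnu (hu ▸ hc)
  · exact h0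

end Frey

open Frey in
/-- Local data of the Frey curve at an odd prime `q`: a rational root `r0` of the two-torsion
cubic with `β = nβ/16`, `b₂' = nb`, and either good reduction at `q`, or multiplicative reduction
with `nβ` equal to `q^(p e)` times a `q`-unit. -/
theorem frey_local_data (P : FreyPackage) {q : ℕ} (hq : q.Prime) (hq2 : q ≠ 2) :
    ∃ (r0 : ℚ) (nβ nb n0 : ℤ), twoTors P.freyCurve r0 = 0 ∧ r0 = (n0 : ℚ) / 4 ∧
      beta P.freyCurve r0 = (nβ : ℚ) / 16 ∧ b2' P.freyCurve r0 = (nb : ℚ) ∧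
      ((∃ nΔ : ℤ, P.freyCurve.Δ = (nΔ : ℚ) / 256 ∧ ¬ (q : ℤ) ∣ nΔ) ∨
        (¬ (q : ℤ) ∣ nb ∧ ∃ (e : ℕ) (m : ℤ), 0 < e ∧ ¬ (q : ℤ) ∣ m ∧
          nβ = (q : ℤ) ^ (P.p * e) * m)) := by
  have hqZ : Prime (q : ℤ) := Nat.prime_iff_prime_int.mp hq
  have hFLT := P.hFLT
  have hcQ := c_pow_eq P
  have hp0 : P.p ≠ 0 := P.hp0
  by_cases hc : (q : ℤ) ∣ P.c
  · -- q ∣ c
    have hna : ¬ (q : ℤ) ∣ P.a := fun ha => not_dvd_of_gcd P.hgcdac hq ha hc
    obtain ⟨e, u, he, hnu, hcu⟩ := exists_pow_mul hq P.hc0 hc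
    refine ⟨(P.a : ℚ) ^ P.p / 4, P.a ^ P.p * P.c ^ P.p, P.a ^ P.p + P.c ^ P.p, P.a ^ P.p,
      ?_, ?_, ?_, ?_, Or.inr ⟨?_, e, P.a ^ P.p * u ^ P.p, he, ?_, ?_⟩⟩
    · rw [twoTors, b₂_eq, b₄_eq, b₆_eq]
      ring
    · push_cast; ring
    · rw [beta, b₂_eq, b₄_eq]
      push_cast
      rw [hcQ]
      ring
    · rw [b2', b₂_eq]
      push_cast
      rw [hcQ]
      ring
    · intro h
      have hC : (q : ℤ) ∣ P.c ^ P.p := dvd_pow hc hp0
      have hA : (q : ℤ) ∣ P.a ^ P.p := (dvd_add_left hC).mp h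
      exact hna (hqZ.dvd_of_dvd_pow hA)
    · intro h
      rcases hqZ.dvd_or_dvd h with h | h
      · exact hna (hqZ.dvd_of_dvd_pow h)
      · exact hnu (hqZ.dvd_of_dvd_pow h)
    · rw [hcu]
      ring
  · by_cases hab : (q : ℤ) ∣ P.a * P.b
    · -- q ∣ a b
      obtain ⟨e, u, he, hnu, habu⟩ := exists_pow_mul hq (mul_ne_zero P.ha0 P.hb0) hab
      refine ⟨0, -(P.a ^ P.p * P.b ^ P.p), P.b ^ P.p - P.a ^ P.p, 0,
        ?_, ?_, ?_, ?_, Or.inr ⟨?_, e, -u ^ P.p, he, ?_, ?_⟩⟩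
      · rw [twoTors, b₆_eq]
        ring
      · push_cast; ring
      · rw [beta, b₄_eq]
        push_cast
        ring
      · rw [b2', b₂_eq]
        push_cast
        ring
      · intro h
        rcases hqZ.dvd_or_dvd hab with ha | hb
        · have hA : (q : ℤ) ∣ P.a ^ P.p := dvd_pow ha hp0
          have hB : (q : ℤ) ∣ P.b ^ P.p := (dvd_sub_left hA).mp h
          exact not_dvd_of_gcd P.hgcdab hq ha (hqZ.dvd_of_dvd_pow hB)
        · have hB : (q : ℤ) ∣ P.b ^ P.p := dvd_pow hb hp0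
          have hA : (q : ℤ) ∣ P.a ^ P.p := (dvd_sub_right hB).mp h
          exact not_dvd_of_gcd P.hgcdab hq (hqZ.dvd_of_dvd_pow hA) hb
      · intro h
        rw [dvd_neg] at h
        exact hnu (hqZ.dvd_of_dvd_pow h)
      · rw [← mul_pow, habu]
        ring
    · -- q ∤ a b c
      refine ⟨0, -(P.a ^ P.p * P.b ^ P.p), P.b ^ P.p - P.a ^ P.p, 0,
        ?_, ?_, ?_, ?_, Or.inl ⟨(P.a ^ P.p * P.b ^ P.p * P.c ^ P.p) ^ 2, Δ_eq P, ?_⟩⟩
      · rw [twoTors, b₆_eq]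
        ring
      · push_cast; ring
      · rw [beta, b₄_eq]
        push_cast
        ring
      · rw [b2', b₂_eq]
        push_cast
        ring
      · intro h
        have h1 := hqZ.dvd_of_dvd_pow h
        rcases hqZ.dvd_or_dvd h1 with h2 | h2
        · rw [← mul_pow] at h2
          exact hab (hqZ.dvd_of_dvd_pow h2)
        · exact hc (hqZ.dvd_of_dvd_pow h2)

end Fermat.Agent.S05
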