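import Mathlib
import Fermat.Prelude.Def_FLTPrelim_Ramification
import Fermat.Prelude.Def_FLTPrelim_GaloisRep
import Fermat.Agent.S05.Defs
import Fermat.Agent.S54.Frobenius

set_option autoImplicit false

namespace Fermat.Agent.S05

open WeierstrassCurve WeierstrassCurve.Affine WeierstrassCurve.Affine.Point

open scoped Pointwise

local notation "K" => AlgebraicClosure ℚ

section Valuation

variable {A : ValuationSubring K}

/-- Membership in the decomposition group: `σ` preserves `A` elementwise. -/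
theorem Inertia.mem_decomposition_iff (A : ValuationSubring K) (σ : K ≃ₐ[ℚ] K) :
    σ ∈ A.decompositionSubgroup ℚ ↔ ∀ x : K, σ x ∈ A ↔ x ∈ A := by
  rw [MulAction.mem_stabilizer_iff]
  constructor
  · intro h x
    have h1 : σ x ∈ σ • A ↔ x ∈ A := ValuationSubring.smul_mem_pointwise_smul_iff
    rw [h] at h1
    exact h1
  · intro h
    ext x
    rw [ValuationSubring.mem_pointwise_smul_iff_inv_smul_mem, ← h]
    simp [AlgEquiv.smul_def, AlgEquiv.aut_inv]

/-- Membership in the inertia group: decomposition group + trivial action on the residue field. -/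
theorem Inertia.mem_inertiaSubgroupIn_iff (A : ValuationSubring K) (σ : K ≃ₐ[ℚ] K) :
    σ ∈ A.inertiaSubgroupIn ℚ ↔
      σ ∈ A.decompositionSubgroup ℚ ∧ ∀ x : K, x ∈ A → A.valuation (σ x - x) < 1 := by
  unfold ValuationSubring.inertiaSubgroupIn
  rw [Subgroup.mem_map]
  constructor
  · rintro ⟨⟨τ, hτ⟩, hmem, rfl⟩
    refine ⟨hτ, fun x hx => ?_⟩
    have h1 : (MulSemiringAction.toRingAut (A.decompositionSubgroup ℚ) (IsLocalRing.ResidueField A))
        ⟨τ, hτ⟩ = 1 := hmem
    have h2 := congrArg (fun f => f (IsLocalRing.residue A ⟨x, hx⟩)) h1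
    simp only [MulSemiringAction.toRingAut_apply, RingAut.one_apply] at h2
    change (⟨τ, hτ⟩ : A.decompositionSubgroup ℚ) • (IsLocalRing.residue A ⟨x, hx⟩) = _ at h2
    rw [← IsLocalRing.ResidueField.residue_smul, ← sub_eq_zero, ← map_sub,
      IsLocalRing.residue_eq_zero_iff, A.valuation_lt_one_iff] at h2
    exact h2
  · rintro ⟨hσ, h⟩
    refine ⟨⟨σ, hσ⟩, ?_, rfl⟩
    show (MulSemiringAction.toRingAut (A.decompositionSubgroup ℚ) (IsLocalRing.ResidueField A))
        ⟨σ, hσ⟩ = 1
    ext y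
    obtain ⟨x, rfl⟩ := IsLocalRing.residue_surjective y
    simp only [MulSemiringAction.toRingAut_apply, RingAut.one_apply]
    change (⟨σ, hσ⟩ : A.decompositionSubgroup ℚ) • (IsLocalRing.residue A x) = _
    rw [← IsLocalRing.ResidueField.residue_smul, ← sub_eq_zero, ← map_sub,
      IsLocalRing.residue_eq_zero_iff, A.valuation_lt_one_iff]
    exact h x x.2

theorem Inertia.inertia_mem_decomposition {σ : K ≃ₐ[ℚ] K} (hσ : σ ∈ A.inertiaSubgroupIn ℚ) :
    σ ∈ A.decompositionSubgroup ℚ :=
  ((Inertia.mem_inertiaSubgroupIn_iff A σ).mp hσ).1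

theorem inertia_valuation_sub_lt {σ : K ≃ₐ[ℚ] K} (hσ : σ ∈ A.inertiaSubgroupIn ℚ) {a : K}
    (ha : A.valuation a ≤ 1) : A.valuation (σ a - a) < 1 :=
  ((Inertia.mem_inertiaSubgroupIn_iff A σ).mp hσ).2 a ((A.valuation_le_one_iff a).mp ha)

theorem valuation_intCast_le_one (n : ℤ) : A.valuation ((n : ℤ) : K) ≤ 1 :=
  (A.valuation_le_one_iff _).mpr (intCast_mem A n)

theorem valuation_intCast_eq_one {q : ℕ} (hq : q.Prime) (hA : A.LiesOverPrime q) {n : ℤ}
    (hn : ¬ (q : ℤ) ∣ n) : A.valuation ((n : ℤ) : K) = 1 := by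
  refine le_antisymm (valuation_intCast_le_one n) (not_lt.mp fun h => hn ?_)
  exact Fermat.Agent.S54.dvd_of_valuation_intCast_lt_one A hq hA n h

theorem valuation_natCast_eq_one {q : ℕ} (hq : q.Prime) (hA : A.LiesOverPrime q) {n : ℕ}
    (hn : ¬ q ∣ n) : A.valuation ((n : ℕ) : K) = 1 := by
  have h := valuation_intCast_eq_one (A := A) hq hA (n := (n : ℤ))
    (fun h => hn (Int.natCast_dvd_natCast.mp h))
  simpa using h

theorem valuation_prime_lt_one {q : ℕ} (hA : A.LiesOverPrime q) :
    A.valuation ((q : ℕ) : K) < 1 :=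
  A.mem_nonunits_iff.mp hA

/-- Every element has finite orbit under the powers of a Galois automorphism. -/
theorem Inertia.exists_pow_apply_eq (σ : K ≃ₐ[ℚ] K) (x : K) : ∃ n : ℕ, 0 < n ∧ (σ ^ n) x = x := by
  have hx : IsIntegral ℚ x := Algebra.IsIntegral.isIntegral x
  have hfin : ((minpoly ℚ x).rootSet K).Finite := Polynomial.rootSet_finite _ _
  have hmem : ∀ k : ℕ, (σ ^ k) x ∈ (minpoly ℚ x).rootSet K := by
    intro k
    rw [Polynomial.mem_rootSet]
    refine ⟨minpoly.ne_zero hx, ?_⟩
    have h1 : Polynomial.aeval ((σ ^ k) x) (minpoly ℚ x) =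
        (σ ^ k) (Polynomial.aeval x (minpoly ℚ x)) :=
      Polynomial.aeval_algHom_apply ((σ ^ k : K ≃ₐ[ℚ] K) : K →ₐ[ℚ] K) x (minpoly ℚ x)
    rw [h1, minpoly.aeval, _root_.map_zero]
  have := hfin.to_subtype
  obtain ⟨i, j, hij, h⟩ := Finite.exists_ne_map_eq_of_infinite
    (fun k : ℕ => (⟨(σ ^ k) x, hmem k⟩ : (minpoly ℚ x).rootSet K))
  have h' : (σ ^ i) x = (σ ^ j) x := congrArg Subtype.val h
  have key : ∀ a b : ℕ, a < b → (σ ^ a) x = (σ ^ b) x → ∃ n : ℕ, 0 < n ∧ (σ ^ n) x = x := by
    intro a b hab hh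
    refine ⟨b - a, by omega, ?_⟩
    have hb : b = a + (b - a) := by omega
    rw [hb, pow_add, AlgEquiv.mul_apply] at hh
    exact ((σ ^ a).injective hh).symm
  rcases lt_or_gt_of_ne hij with hlt | hlt
  · exact key i j hlt h'
  · exact key j i hlt h'.symm

/-- The decomposition group preserves the valuation. -/
theorem Inertia.valuation_apply_of_mem_decomposition (A : ValuationSubring K) (σ : K ≃ₐ[ℚ] K)
    (hσ : σ ∈ A.decompositionSubgroup ℚ) (x : K) : A.valuation (σ x) = A.valuation x := by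
  have hA := (Inertia.mem_decomposition_iff A σ).mp hσ
  have hle : ∀ a b : K, A.valuation a ≤ A.valuation b ↔ A.valuation (σ a) ≤ A.valuation (σ b) := by
    intro a b
    rcases eq_or_ne b 0 with rfl | hb
    · simp
    · have hσb : σ b ≠ 0 := by simpa using hb
      have h1 : A.valuation a ≤ A.valuation b ↔ a / b ∈ A := by
        rw [← A.valuation_le_one_iff, map_div₀,
          div_le_one₀ (zero_lt_iff.mpr ((map_ne_zero _).mpr hb))]
      have h2 : A.valuation (σ a) ≤ A.valuation (σ b) ↔ σ (a / b) ∈ A := by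
        rw [← A.valuation_le_one_iff, map_div₀, map_div₀,
          div_le_one₀ (zero_lt_iff.mpr ((map_ne_zero _).mpr hσb))]
      rw [h1, h2, hA]
  have hlt : ∀ a b : K, A.valuation a < A.valuation b ↔ A.valuation (σ a) < A.valuation (σ b) := by
    intro a b
    rw [← not_le, ← not_le, hle b a]
  obtain ⟨n, hn, hnx⟩ := Inertia.exists_pow_apply_eq σ x
  rcases lt_trichotomy (A.valuation (σ x)) (A.valuation x) with h | h | h
  · exfalso
    have hall : ∀ k : ℕ, A.valuation ((σ ^ (k + 1)) x) < A.valuation x := by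
      intro k
      induction k with
      | zero => simpa using h
      | succ k ih =>
        have h3 : A.valuation (σ ((σ ^ (k + 1)) x)) < A.valuation (σ x) := (hlt _ _).mp ih
        have h4 : (σ ^ (k + 1 + 1)) x = σ ((σ ^ (k + 1)) x) := by
          rw [pow_succ' σ (k + 1), AlgEquiv.mul_apply]
        rw [h4]
        exact h3.trans h
    obtain ⟨m, rfl⟩ := Nat.exists_eq_succ_of_ne_zero hn.ne'
    have := hall m
    rw [hnx] at this
    exact lt_irrefl _ this
  · exact h
  · exfalso
    have hall : ∀ k : ℕ, A.valuation x < A.valuation ((σ ^ (k + 1)) x) := by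
      intro k
      induction k with
      | zero => simpa using h
      | succ k ih =>
        have h3 : A.valuation (σ x) < A.valuation (σ ((σ ^ (k + 1)) x)) := (hlt _ _).mp ih
        have h4 : (σ ^ (k + 1 + 1)) x = σ ((σ ^ (k + 1)) x) := by
          rw [pow_succ' σ (k + 1), AlgEquiv.mul_apply]
        rw [h4]
        exact h.trans h3
    obtain ⟨m, rfl⟩ := Nat.exists_eq_succ_of_ne_zero hn.ne'
    have := hall m
    rw [hnx] at this
    exact lt_irrefl _ this

end Valuation

end Fermat.Agent.S05
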