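import Fermat.Agent.S05.Sing

set_option autoImplicit false

namespace Fermat.Agent.S05

open WeierstrassCurve

variable {L : Type*} [Field L] [DecidableEq L] [CharZero L] {W : Affine L} {x0 : L}

/-- The local theorem: `τ` fixes all `p`-torsion, in the good-reduction case and in the
multiplicative-reduction case with `p ∣ v(β)`. -/
theorem tau_eq_self (hx0 : twoTors W x0 = 0) (A : ValuationSubring L) (O : OrdFun A)
    (hb2 : A.valuation (b2' W x0) ≤ 1) (hβ : A.valuation (beta W x0) ≤ 1)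
    (h2 : A.valuation (2 : L) = 1)
    {p : ℕ} (hp : p.Prime) (hp5 : 5 ≤ p) (hpA : A.valuation (p : L) = 1)
    (σ : L →+* L) (τ : W.Point →+ W.Point)
    (hσ : ∀ a : L, A.valuation a ≤ 1 → A.valuation (σ a - a) < 1)
    (hτ : ∀ P : W.Point, P ≠ 0 →
      τ P ≠ 0 ∧ xi W x0 (τ P) = σ (xi W x0 P) ∧ eta W (τ P) = σ (eta W P))
    (hcase : (∀ t : L, A.valuation t ≤ 1 →
        ¬ (A.valuation (t ^ 2 - beta W x0) < 1 ∧ A.valuation (fxi W x0 t) < 1)) ∨
      (A.valuation (beta W x0) < 1 ∧ A.valuation (b2' W x0) = 1 ∧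
        ∃ (π u : L) (e : ℕ), σ π = π ∧ π ≠ 0 ∧ A.valuation u = 1 ∧
          beta W x0 = π ^ (p * e) * u))
    {P : W.Point} (hP : p • P = 0) : τ P = P := by
  by_cases hP0 : P = 0
  · rw [hP0, map_zero]
  have hint : A.valuation (xi W x0 P) ≤ 1 :=
    valuation_xi_le_one_of_torsion hx0 A hb2 hβ h2 hp hp5 hpA hP0 hP
  rcases hcase with hgood | ⟨hβ1, hb1, hπ⟩
  · exact tau_eq_self_of_nonsing hx0 A hb2 hβ h2 hp hp5 hpA σ τ hσ hτ hP0 hP (hgood _ hint)
  · rcases hint.lt_or_eq with hlt | heq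
    · exact tau_eq_self_of_sing hx0 A O hb1 hβ1 h2 hp hp5 hpA σ τ hσ hτ hπ hP0 hP hlt
    · refine tau_eq_self_of_nonsing hx0 A hb2 hβ h2 hp hp5 hpA σ τ hσ hτ hP0 hP ?_
      rintro ⟨h1, -⟩
      have h3 : A.valuation (xi W x0 P ^ 2) = 1 := by rw [map_pow, heq, one_pow]
      have h4 : A.valuation (xi W x0 P ^ 2 - beta W x0) = 1 := by
        rw [A.valuation.map_sub_eq_of_lt_left (by rw [h3]; exact hβ1), h3]
      rw [h4] at h1
      exact lt_irrefl _ h1

end Fermat.Agent.S05
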