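import Mathlib
import Fermat.Prelude.Def_FLTPrelim_Ramification
import Fermat.Agent.S05.Defs
import Fermat.Agent.S54.Frobenius

set_option autoImplicit false

namespace Fermat.Agent.S05

local notation "Ω" => AlgebraicClosure ℚ

namespace OrdAux

variable (A : ValuationSubring Ω) {q : ℕ}

theorem valuation_q_lt_one (hA : (q : Ω) ∈ A.nonunits) : A.valuation (q : Ω) < 1 :=
  A.mem_nonunits_iff.mp hA

theorem valuation_q_pos (hq : q.Prime) : 0 < A.valuation (q : Ω) := by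
  rw [zero_lt_iff]
  exact (map_ne_zero _).mpr (Nat.cast_ne_zero.mpr hq.ne_zero)

theorem valuation_intCast_of_not_dvd (hq : q.Prime) (hA : (q : Ω) ∈ A.nonunits) (c : ℤ)
    (hc : ¬ (q : ℤ) ∣ c) : A.valuation (c : Ω) = 1 := by
  refine le_antisymm ((A.valuation_le_one_iff _).mpr (intCast_mem A c)) (not_lt.mp fun h => hc ?_)
  exact Fermat.Agent.S54.dvd_of_valuation_intCast_lt_one A hq hA c h

theorem exists_valuation_intCast (hq : q.Prime) (hA : (q : Ω) ∈ A.nonunits) (c : ℤ)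
    (hc : c ≠ 0) : ∃ e : ℕ, A.valuation (c : Ω) = A.valuation (q : Ω) ^ e := by
  obtain ⟨e, c', hc', hcc⟩ := Nat.exists_eq_pow_mul_and_not_dvd (Int.natAbs_ne_zero.mpr hc) q
    hq.ne_one
  refine ⟨e, ?_⟩
  have h1 : A.valuation ((c.natAbs : ℤ) : Ω) = A.valuation (q : Ω) ^ e := by
    rw [hcc]
    push_cast
    rw [map_mul, map_pow]
    have := valuation_intCast_of_not_dvd A hq hA (c' : ℤ)
      (fun h => hc' (Int.natCast_dvd_natCast.mp h))
    rw [Int.cast_natCast] at this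
    rw [this, mul_one]
  rcases Int.natAbs_eq c with h | h
  · rw [h]; exact h1
  · rw [h, Int.cast_neg, Valuation.map_neg]; exact h1

/-- The value group of `A` is contained in the divisible hull of `v(q)^ℤ`. -/
theorem exists_pow_eq (hq : q.Prime) (hA : (q : Ω) ∈ A.nonunits) (x : Ω) (hx : x ≠ 0) :
    ∃ n : ℕ, 0 < n ∧ ∃ m : ℤ, A.valuation x ^ n = A.valuation (q : Ω) ^ m := by
  classical
  obtain ⟨p, hp0, hpx⟩ := Fermat.Agent.S54.isAlgebraic_int x
  set v := A.valuation with hv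
  set t : ℕ → Ω := fun i => (p.coeff i : Ω) * x ^ i with ht
  have hS : p.support.Nonempty := Polynomial.support_nonempty.mpr hp0
  have hsum : ∑ i ∈ p.support, t i = 0 := by
    rw [← hpx, Polynomial.aeval_def, Polynomial.eval₂_eq_sum, Polynomial.sum_def]
    refine Finset.sum_congr rfl fun i _ => ?_
    simp [ht]
  have htne : ∀ i ∈ p.support, t i ≠ 0 := by
    intro i hi
    have : p.coeff i ≠ 0 := Polynomial.mem_support_iff.mp hi
    exact mul_ne_zero (Int.cast_ne_zero.mpr this) (pow_ne_zero _ hx)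
  obtain ⟨i₀, hi₀, hmax⟩ := Finset.exists_max_image p.support (fun i => v (t i)) hS
  have hex : ∃ j ∈ p.support, j ≠ i₀ ∧ v (t j) = v (t i₀) := by
    by_contra hne
    push Not at hne
    have hlt : ∀ j ∈ p.support.erase i₀, v (t j) < v (t i₀) := by
      intro j hj
      rw [Finset.mem_erase] at hj
      exact lt_of_le_of_ne (hmax j hj.2) (hne j hj.2 hj.1)
    have h0 : v (t i₀) ≠ 0 := (map_ne_zero _).mpr (htne i₀ hi₀)
    have h1 : v (∑ j ∈ p.support.erase i₀, t j) < v (t i₀) := Valuation.map_sum_lt v h0 hlt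
    have h2 : v (t i₀ + ∑ j ∈ p.support.erase i₀, t j) = v (t i₀) :=
      Valuation.map_add_eq_of_lt_left v h1
    rw [Finset.add_sum_erase _ _ hi₀, hsum, map_zero] at h2
    exact h0 h2.symm
  obtain ⟨j, hj, hji, hjv⟩ := hex
  obtain ⟨e₀, he₀⟩ :=
    exists_valuation_intCast A hq hA (p.coeff i₀) (Polynomial.mem_support_iff.mp hi₀)
  obtain ⟨e₁, he₁⟩ :=
    exists_valuation_intCast A hq hA (p.coeff j) (Polynomial.mem_support_iff.mp hj)
  have hg0 : v (q : Ω) ≠ 0 := (valuation_q_pos A hq).ne'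
  have hvx : v x ≠ 0 := (map_ne_zero _).mpr hx
  simp only [ht, map_mul, map_pow] at hjv
  rw [← hv] at he₀ he₁
  rw [he₀, he₁] at hjv
  have key : ∀ a b : ℕ, a < b → ∀ ea eb : ℕ,
      v (q : Ω) ^ ea * v x ^ a = v (q : Ω) ^ eb * v x ^ b →
      ∃ n : ℕ, 0 < n ∧ ∃ m : ℤ, v x ^ n = v (q : Ω) ^ m := by
    intro a b hab ea eb h
    refine ⟨b - a, by omega, (ea : ℤ) - eb, ?_⟩
    have hb : b = a + (b - a) := by omega
    rw [hb, pow_add] at h
    have h3 : v (q : Ω) ^ ea = v (q : Ω) ^ eb * v x ^ (b - a) := by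
      have h4 : v (q : Ω) ^ ea * v x ^ a = (v (q : Ω) ^ eb * v x ^ (b - a)) * v x ^ a := by
        rw [h]; ac_rfl
      exact mul_right_cancel₀ (pow_ne_zero _ hvx) h4
    rw [zpow_sub₀ hg0, zpow_natCast, zpow_natCast, h3]
    exact (mul_div_cancel_left₀ _ (pow_ne_zero _ hg0)).symm
  rcases lt_or_gt_of_ne hji with hlt | hlt
  · exact key j i₀ hlt e₁ e₀ hjv
  · exact key i₀ j hlt e₀ e₁ hjv.symm

/-- `r` is the order of `x` relative to `q`: `v(x)^n = v(q)^m` with `r = m / n`. -/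
def IsOrd (q : ℕ) (x : Ω) (r : ℚ) : Prop :=
  ∃ n : ℕ, 0 < n ∧ ∃ m : ℤ, A.valuation x ^ n = A.valuation (q : Ω) ^ m ∧ r = (m : ℚ) / n

theorem exists_isOrd (hq : q.Prime) (hA : (q : Ω) ∈ A.nonunits) (x : Ω) (hx : x ≠ 0) :
    ∃ r : ℚ, IsOrd A q x r := by
  obtain ⟨n, hn, m, h⟩ := exists_pow_eq A hq hA x hx
  exact ⟨(m : ℚ) / n, n, hn, m, h, rfl⟩

theorem isOrd_le_iff (hq : q.Prime) (hA : (q : Ω) ∈ A.nonunits) {x y : Ω} {r s : ℚ}
    (hx : IsOrd A q x r) (hy : IsOrd A q y s) :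
    A.valuation x ≤ A.valuation y ↔ s ≤ r := by
  obtain ⟨n, hn, m, hxm, rfl⟩ := hx
  obtain ⟨n', hn', m', hym, rfl⟩ := hy
  have hg0 : 0 < A.valuation (q : Ω) := valuation_q_pos A hq
  have hg1 : A.valuation (q : Ω) < 1 := valuation_q_lt_one A hA
  have h1 : A.valuation x ≤ A.valuation y ↔
      A.valuation x ^ (n * n') ≤ A.valuation y ^ (n * n') :=
    (pow_le_pow_iff_left₀ zero_le zero_le (Nat.mul_ne_zero hn.ne' hn'.ne')).symm
  have h2 : A.valuation x ^ (n * n') = A.valuation (q : Ω) ^ (m * n') := by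
    rw [pow_mul, hxm, ← zpow_natCast, ← zpow_mul]
  have h3 : A.valuation y ^ (n * n') = A.valuation (q : Ω) ^ (m' * n) := by
    rw [mul_comm n n', pow_mul, hym, ← zpow_natCast, ← zpow_mul]
  rw [h1, h2, h3, zpow_le_zpow_iff_right_of_lt_one₀ hg0 hg1]
  have hnQ : (0 : ℚ) < n := by exact_mod_cast hn
  have hn'Q : (0 : ℚ) < n' := by exact_mod_cast hn'
  rw [div_le_div_iff₀ hn'Q hnQ]
  exact_mod_cast Iff.rfl

theorem isOrd_unique (hq : q.Prime) (hA : (q : Ω) ∈ A.nonunits) {x : Ω} {r s : ℚ}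
    (hr : IsOrd A q x r) (hs : IsOrd A q x s) : r = s :=
  le_antisymm ((isOrd_le_iff A hq hA hs hr).mp le_rfl) ((isOrd_le_iff A hq hA hr hs).mp le_rfl)

theorem isOrd_mul (hq : q.Prime) {x y : Ω} {r s : ℚ}
    (hx : IsOrd A q x r) (hy : IsOrd A q y s) : IsOrd A q (x * y) (r + s) := by
  obtain ⟨n, hn, m, hxm, rfl⟩ := hx
  obtain ⟨n', hn', m', hym, rfl⟩ := hy
  have h0 : A.valuation (q : Ω) ≠ 0 := (valuation_q_pos A hq).ne'
  refine ⟨n * n', Nat.mul_pos hn hn', m * n' + m' * n, ?_, ?_⟩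
  · rw [map_mul, mul_pow, zpow_add₀ h0]
    congr 1
    · rw [pow_mul, hxm, ← zpow_natCast, ← zpow_mul]
    · rw [mul_comm n n', pow_mul, hym, ← zpow_natCast, ← zpow_mul]
  · have hnQ : (n : ℚ) ≠ 0 := by exact_mod_cast hn.ne'
    have hn'Q : (n' : ℚ) ≠ 0 := by exact_mod_cast hn'.ne'
    push_cast
    field_simp

theorem isOrd_q : IsOrd A q (q : Ω) 1 :=
  ⟨1, one_pos, 1, by simp, by simp⟩

end OrdAux

open OrdAux in
/-- A rational-valued order function normalised by `ord q = 1`; `OrdAux.IsOrd` pins down its values: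
`v(x)^n = v(q)^m` with `ord x = m / n`. -/
theorem exists_ordFun_strong (A : ValuationSubring (AlgebraicClosure ℚ)) {q : ℕ} (hq : q.Prime)
    (hA : A.LiesOverPrime q) :
    ∃ o : OrdFun A, o.ord (q : AlgebraicClosure ℚ) = 1 ∧
      ∀ x : AlgebraicClosure ℚ, x ≠ 0 → OrdAux.IsOrd A q x (o.ord x) := by
  classical
  have hA' : (q : Ω) ∈ A.nonunits := hA
  have hspec : ∀ x : Ω, ∃ r : ℚ, x ≠ 0 → IsOrd A q x r := by
    intro x
    by_cases hx : x = 0
    · exact ⟨0, fun h => absurd hx h⟩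
    · obtain ⟨r, hr⟩ := exists_isOrd A hq hA' x hx
      exact ⟨r, fun _ => hr⟩
  choose f hf using hspec
  have hq0 : (q : Ω) ≠ 0 := Nat.cast_ne_zero.mpr hq.ne_zero
  refine ⟨⟨f, ?_, ?_⟩, ?_, fun x hx => hf x hx⟩
  · intro x y hx hy
    exact isOrd_unique A hq hA' (hf _ (mul_ne_zero hx hy)) (isOrd_mul A hq (hf x hx) (hf y hy))
  · intro x y hx hy
    exact isOrd_le_iff A hq hA' (hf x hx) (hf y hy)
  · exact isOrd_unique A hq hA' (hf _ hq0) (isOrd_q A)

/-- Every valuation subring of `ℚ̄` lying over a prime `q` has rank one: it carries a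
rational-valued order function. -/
theorem exists_ordFun (A : ValuationSubring (AlgebraicClosure ℚ)) {q : ℕ} (hq : q.Prime)
    (hA : A.LiesOverPrime q) : Nonempty (OrdFun A) :=
  let ⟨o, _⟩ := exists_ordFun_strong A hq hA
  ⟨o⟩

end Fermat.Agent.S05
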