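import Mathlib

set_option autoImplicit false

namespace Fermat.Agent.S05

/-- The fold map on `[0, 2h]`. -/
def foldQ (h t : ℚ) : ℚ := if t ≤ h then t else 2 * h - t

/-- clamp to `[0, h]` -/
def depQ (h a : ℚ) : ℚ := max 0 (min a h)

/-- Two representatives of `y` modulo `2hℤ` lying in `[-h, h]` have the same absolute value. -/
theorem Fold.abs_unique {h y : ℚ} (hh : 0 < h) {k k' : ℤ} (h1 : |y - 2 * h * k| ≤ h)
    (h2 : |y - 2 * h * k'| ≤ h) : |y - 2 * h * k| = |y - 2 * h * k'| := by
  rw [abs_le] at h1 h2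
  obtain ⟨h1a, h1b⟩ := h1
  obtain ⟨h2a, h2b⟩ := h2
  have e1 : (k' : ℚ) - k ≤ 1 := by
    have : (2 * h) * ((k' : ℚ) - k) ≤ (2 * h) * 1 := by linarith
    exact le_of_mul_le_mul_left this (by linarith)
  have e2 : (k : ℚ) - k' ≤ 1 := by
    have : (2 * h) * ((k : ℚ) - k') ≤ (2 * h) * 1 := by linarith
    exact le_of_mul_le_mul_left this (by linarith)
  have e1' : k' - k ≤ 1 := by exact_mod_cast e1
  have e2' : k - k' ≤ 1 := by exact_mod_cast e2
  have hcases : k' = k ∨ k' = k + 1 ∨ k' = k - 1 := by omega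
  rcases hcases with rfl | rfl | rfl
  · rfl
  · push_cast at h2a h2b ⊢
    have e : y - 2 * h * k = h := by linarith
    have e' : y - 2 * h * ((k : ℚ) + 1) = -h := by linarith
    rw [e, e', abs_neg]
  · push_cast at h2a h2b ⊢
    have e : y - 2 * h * k = -h := by linarith
    have e' : y - 2 * h * ((k : ℚ) - 1) = h := by linarith
    rw [e, e', abs_neg]

/-- The invariant of the fold induction: `x` is the distance from `y` to the lattice `2hℤ`. -/
def Fold.IsDist (h y x : ℚ) : Prop := ∃ k : ℤ, |y - 2 * h * k| ≤ h ∧ x = |y - 2 * h * k|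

theorem Fold.isDist_unique {h y x x' : ℚ} (hh : 0 < h) (hx : Fold.IsDist h y x)
    (hx' : Fold.IsDist h y x') : x = x' := by
  obtain ⟨k, hk, rfl⟩ := hx
  obtain ⟨k', hk', rfl⟩ := hx'
  exact Fold.abs_unique hh hk hk'

/-- One step: from a representative `x` of `y` modulo `2hℤ` in `[-h, h]`, the two numbers
`foldQ h (|x| + c)` and `||x| - c|` are the distances of `y + c` and `y - c` to `2hℤ`, in one
order or the other. -/
theorem Fold.step {h c y : ℚ} (hc0 : 0 < c) (hch : c < h) {k : ℤ} (hk : |y - 2 * h * k| ≤ h) :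
    (Fold.IsDist h (y + c) (foldQ h (|y - 2 * h * k| + c)) ∧
        Fold.IsDist h (y - c) (|(|y - 2 * h * k|) - c|)) ∨
      (Fold.IsDist h (y - c) (foldQ h (|y - 2 * h * k| + c)) ∧
        Fold.IsDist h (y + c) (|(|y - 2 * h * k|) - c|)) := by
  have hk' := abs_le.mp hk
  obtain ⟨hka, hkb⟩ := hk'
  rcases le_or_gt 0 (y - 2 * h * k) with hx | hx
  · left
    rw [abs_of_nonneg hx]
    constructor
    · unfold foldQ
      split_ifs with hle
      · refine ⟨k, ?_, ?_⟩
        · rw [abs_le]; constructor <;> linarith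
        · rw [abs_of_nonneg (by linarith)]; ring
      · rw [not_le] at hle
        refine ⟨k + 1, ?_, ?_⟩
        · push_cast; rw [abs_le]; constructor <;> linarith
        · push_cast; rw [abs_of_nonpos (by linarith)]; ring
    · refine ⟨k, ?_, ?_⟩
      · rw [abs_le]; constructor <;> linarith
      · congr 1; ring
  · right
    rw [abs_of_neg hx]
    constructor
    · unfold foldQ
      split_ifs with hle
      · refine ⟨k, ?_, ?_⟩
        · rw [abs_le]; constructor <;> linarith
        · rw [abs_of_nonpos (by linarith)]; ring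
      · rw [not_le] at hle
        refine ⟨k - 1, ?_, ?_⟩
        · push_cast; rw [abs_le]; constructor <;> linarith
        · push_cast; rw [abs_of_nonneg (by linarith)]; ring
    · refine ⟨k, ?_, ?_⟩
      · rw [abs_le]; constructor <;> linarith
      · rw [← abs_neg]; congr 1; ring

theorem fold_induction {h c : ℚ} (hc0 : 0 < c) (hch : c < h) {p : ℕ} (d : ℕ → ℚ)
    (hd0 : d 0 = 0) (hd1 : d 1 = c)
    (hstep : ∀ m : ℕ, 1 ≤ m → m < p →
      (d (m + 1) = foldQ h (d m + c) ∧ d (m - 1) = |d m - c|) ∨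
      (d (m + 1) = |d m - c| ∧ d (m - 1) = foldQ h (d m + c)))
    (hdp : d p = 0) : ∃ k : ℤ, (p : ℚ) * c = 2 * h * k := by
  have hh : 0 < h := lt_trans hc0 hch
  have key : ∀ m : ℕ, m ≤ p → Fold.IsDist h ((m : ℚ) * c) (d m) := by
    intro m
    induction m using Nat.twoStepInduction with
    | zero =>
      intro _
      exact ⟨0, by simpa using hh.le, by simp [hd0]⟩
    | one =>
      intro _
      refine ⟨0, ?_, ?_⟩
      · simp only [Nat.cast_one, one_mul, Int.cast_zero, mul_zero, sub_zero]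
        rw [abs_of_pos hc0]; exact hch.le
      · simp only [Nat.cast_one, one_mul, Int.cast_zero, mul_zero, sub_zero]
        rw [abs_of_pos hc0]; exact hd1
    | more m ih0 ih1 =>
      intro hm
      have i0 := ih0 (by omega)
      have i1 := ih1 (by omega)
      obtain ⟨k, hk, hdk⟩ := i1
      have hs := hstep (m + 1) (by omega) (by omega)
      have e1 : ((m + 1 : ℕ) : ℚ) * c + c = ((m + 2 : ℕ) : ℚ) * c := by push_cast; ring
      have e2 : ((m + 1 : ℕ) : ℚ) * c - c = ((m : ℕ) : ℚ) * c := by push_cast; ring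
      have hst := Fold.step hc0 hch hk
      rw [e1, e2, ← hdk] at hst
      simp only [Nat.add_sub_cancel] at hs
      rcases hst with ⟨hA, hB⟩ | ⟨hA, hB⟩
      · rcases hs with ⟨hs1, hs2⟩ | ⟨hs1, hs2⟩
        · rw [show m + 1 + 1 = m + 2 from rfl] at hs1
          rw [hs1]; exact hA
        · -- `d m` equals both distances
          rw [show m + 1 + 1 = m + 2 from rfl] at hs1
          have : d m = |d (m + 1) - c| := Fold.isDist_unique hh i0 hB
          rw [hs1, ← this, hs2]; exact hA
      · rcases hs with ⟨hs1, hs2⟩ | ⟨hs1, hs2⟩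
        · rw [show m + 1 + 1 = m + 2 from rfl] at hs1
          have : d m = foldQ h (d (m + 1) + c) := Fold.isDist_unique hh i0 hA
          rw [hs1, ← this, hs2]; exact hB
        · rw [show m + 1 + 1 = m + 2 from rfl] at hs1
          rw [hs1]; exact hB
  obtain ⟨k, _, hk⟩ := key p le_rfl
  rw [hdp] at hk
  refine ⟨k, ?_⟩
  have := abs_eq_zero.mp hk.symm
  linarith

end Fermat.Agent.S05
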