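import Fermat.Agent.S05.OrdLemmas
import Fermat.Agent.S05.Fold

set_option autoImplicit false

namespace Fermat.Agent.S05

variable {L : Type*} [Field L] {A : ValuationSubring L} (O : OrdFun A)

namespace Depth

/-! ### A small calculus of orders: `Is O x t` means `x ≠ 0` and `ord x = t`;
`Ge O x t` means `x = 0` or `t ≤ ord x`. -/

/-- `x ≠ 0` and `ord x = t`. -/
def Is (x : L) (t : ℚ) : Prop := x ≠ 0 ∧ O.ord x = t

/-- `x = 0` or `t ≤ ord x`. -/
def Ge (x : L) (t : ℚ) : Prop := x = 0 ∨ t ≤ O.ord x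

variable {O}

theorem is_self {x : L} (hx : x ≠ 0) : Is O x (O.ord x) := ⟨hx, rfl⟩

theorem Is.ge {x : L} {t u : ℚ} (h : Is O x t) (hu : u ≤ t) : Ge O x u :=
  Or.inr (by rw [h.2]; exact hu)

theorem Ge.mono {x : L} {t u : ℚ} (h : Ge O x t) (hu : u ≤ t) : Ge O x u :=
  h.imp id (fun h' => hu.trans h')

theorem Is.le_of_ge {x : L} {t u : ℚ} (h : Is O x t) (h' : Ge O x u) : u ≤ t := by
  rcases h' with h' | h'
  · exact absurd h' h.1
  · rw [← h.2]; exact h'

theorem Is.mul {x y : L} {t u : ℚ} (hx : Is O x t) (hy : Is O y u) : Is O (x * y) (t + u) :=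
  ⟨mul_ne_zero hx.1 hy.1, by rw [O.ord_mul _ _ hx.1 hy.1, hx.2, hy.2]⟩

theorem Ge.mul {x y : L} {t u : ℚ} (hx : Ge O x t) (hy : Ge O y u) : Ge O (x * y) (t + u) := by
  by_cases hx0 : x = 0
  · left; rw [hx0, zero_mul]
  by_cases hy0 : y = 0
  · left; rw [hy0, mul_zero]
  right
  have hx' : t ≤ O.ord x := hx.resolve_left hx0
  have hy' : u ≤ O.ord y := hy.resolve_left hy0
  rw [O.ord_mul _ _ hx0 hy0]; linarith

theorem Is.pow {x : L} {t : ℚ} (hx : Is O x t) (n : ℕ) : Is O (x ^ n) (n * t) :=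
  ⟨pow_ne_zero n hx.1, by rw [O.ord_pow hx.1, hx.2]⟩

theorem Is.sq {x : L} {t : ℚ} (hx : Is O x t) : Is O (x ^ 2) (2 * t) := by
  have h := hx.pow 2
  simpa using h

theorem Is.cube {x : L} {t : ℚ} (hx : Is O x t) : Is O (x ^ 3) (3 * t) := by
  have h := hx.pow 3
  simpa using h

theorem Is.neg {x : L} {t : ℚ} (hx : Is O x t) : Is O (-x) t :=
  ⟨neg_ne_zero.mpr hx.1, by rw [O.ord_neg, hx.2]⟩

theorem Ge.neg {x : L} {t : ℚ} (hx : Ge O x t) : Ge O (-x) t := by
  rcases hx with hx | hx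
  · left; rw [hx, neg_zero]
  · right; rw [O.ord_neg]; exact hx

theorem Is.add {x y : L} {t u : ℚ} (hx : Is O x t) (hy : Ge O y u) (h : t < u) :
    Is O (x + y) t := by
  by_cases hy0 : y = 0
  · rw [hy0, add_zero]; exact hx
  have hy' : u ≤ O.ord y := hy.resolve_left hy0
  have h' := O.ord_add_of_lt hx.1 hy0 (by rw [hx.2]; linarith)
  exact ⟨h'.1, h'.2.trans hx.2⟩

theorem Is.add' {x y : L} {t u : ℚ} (hx : Ge O x u) (hy : Is O y t) (h : t < u) :
    Is O (x + y) t := by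
  rw [add_comm]; exact hy.add hx h

theorem Is.sub {x y : L} {t u : ℚ} (hx : Is O x t) (hy : Ge O y u) (h : t < u) :
    Is O (x - y) t := by
  rw [sub_eq_add_neg]; exact hx.add hy.neg h

theorem Is.sub' {x y : L} {t u : ℚ} (hx : Ge O x u) (hy : Is O y t) (h : t < u) :
    Is O (x - y) t := by
  rw [sub_eq_add_neg]; exact Is.add' hx hy.neg h

theorem Ge.add {x y : L} {t : ℚ} (hx : Ge O x t) (hy : Ge O y t) : Ge O (x + y) t := by
  by_cases hx0 : x = 0
  · rw [hx0, zero_add]; exact hy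
  by_cases hy0 : y = 0
  · rw [hy0, add_zero]; exact hx
  by_cases hxy : x + y = 0
  · left; exact hxy
  right
  have hx' : t ≤ O.ord x := hx.resolve_left hx0
  have hy' : t ≤ O.ord y := hy.resolve_left hy0
  exact (le_min hx' hy').trans (O.le_ord_add hx0 hy0 hxy)

theorem Ge.sub {x y : L} {t : ℚ} (hx : Ge O x t) (hy : Ge O y t) : Ge O (x - y) t := by
  rw [sub_eq_add_neg]; exact hx.add hy.neg

theorem Is.of_mul_eq {P D N : L} {n d : ℚ} (h : P * D = N) (hN : Is O N n) (hD : Is O D d) :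
    Is O P (n - d) := by
  have hP : P ≠ 0 := by
    intro hP0
    rw [hP0, zero_mul] at h
    exact hN.1 h.symm
  refine ⟨hP, ?_⟩
  have h' := O.ord_mul P D hP hD.1
  rw [h, hN.2, hD.2] at h'
  linarith

theorem Ge.of_mul_eq {S D N : L} {n d : ℚ} (h : S * D = N) (hN : Ge O N n) (hD : Is O D d) :
    Ge O S (n - d) := by
  by_cases hS : S = 0
  · left; exact hS
  right
  have hN0 : N ≠ 0 := by rw [← h]; exact mul_ne_zero hS hD.1
  have h' := O.ord_mul S D hS hD.1
  rw [h, hD.2] at h'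
  have hn : n ≤ O.ord N := hN.resolve_left hN0
  linarith

theorem is_of_valuation_eq_one {b : L} (hb : A.valuation b = 1) : Is O b 0 := by
  have hb0 : b ≠ 0 := by
    intro hb0
    rw [hb0, Valuation.map_zero] at hb
    exact zero_ne_one hb
  exact ⟨hb0, (O.ord_eq_zero_iff hb0).mpr hb⟩

theorem ge_of_valuation_le_one {b : L} (hb : A.valuation b ≤ 1) : Ge O b 0 := by
  by_cases hb0 : b = 0
  · left; exact hb0
  · right; exact (O.ord_nonneg_iff hb0).mpr hb

theorem is_four (h2 : Is O (2 : L) 0) : Is O (4 : L) 0 := by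
  have h := h2.mul h2
  have e : (2 : L) * 2 = 4 := by norm_num
  rw [e, add_zero] at h
  exact h

/-! ### The Newton polygon of a quadratic -/

theorem newton_distinct {U V : L} {p σ : ℚ} (hP : Is O (U * V) p) (hS : Is O (U + V) σ)
    (h : 2 * σ < p) :
    (O.ord U = σ ∧ O.ord V = p - σ) ∨ (O.ord V = σ ∧ O.ord U = p - σ) := by
  have hU : U ≠ 0 := left_ne_zero_of_mul hP.1
  have hV : V ≠ 0 := right_ne_zero_of_mul hP.1
  have hp : O.ord U + O.ord V = p := by rw [← O.ord_mul _ _ hU hV]; exact hP.2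
  rcases lt_trichotomy (O.ord U) (O.ord V) with hlt | heq | hgt
  · left
    have h' := (O.ord_add_of_lt hU hV hlt).2
    rw [hS.2] at h'
    constructor <;> linarith
  · exfalso
    have h' := O.le_ord_add hU hV hS.1
    rw [hS.2, heq, min_self] at h'
    linarith
  · right
    have h' := (O.ord_add_of_lt hV hU hgt).2
    rw [add_comm, hS.2] at h'
    constructor <;> linarith

theorem newton_equal {U V : L} {p σ : ℚ} (hP : Is O (U * V) p) (hS : Ge O (U + V) σ)
    (h : p ≤ 2 * σ) : 2 * O.ord U = p ∧ 2 * O.ord V = p := by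
  have hU : U ≠ 0 := left_ne_zero_of_mul hP.1
  have hV : V ≠ 0 := right_ne_zero_of_mul hP.1
  have hp : O.ord U + O.ord V = p := by rw [← O.ord_mul _ _ hU hV]; exact hP.2
  rcases lt_trichotomy (O.ord U) (O.ord V) with hlt | heq | hgt
  · exfalso
    have h1 := O.ord_add_of_lt hU hV hlt
    have h2 : σ ≤ O.ord (U + V) := hS.resolve_left h1.1
    rw [h1.2] at h2
    linarith
  · constructor <;> linarith
  · exfalso
    have h1 := O.ord_add_of_lt hV hU hgt
    rw [add_comm] at h1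
    have h2 : σ ≤ O.ord (U + V) := hS.resolve_left h1.1
    rw [h1.2] at h2
    linarith

/-! ### Evaluating `depQ` and `foldQ` -/

theorem depQ_of_nonpos {h x : ℚ} (hx : x ≤ 0) (hh : 0 ≤ h) : depQ h x = 0 := by
  unfold depQ
  rw [min_eq_left (hx.trans hh), max_eq_left hx]

theorem depQ_of_mem {h x : ℚ} (hx0 : 0 ≤ x) (hxh : x ≤ h) : depQ h x = x := by
  unfold depQ
  rw [min_eq_left hxh, max_eq_right hx0]

theorem depQ_of_ge {h x : ℚ} (hx : h ≤ x) (hh : 0 ≤ h) : depQ h x = h := by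
  unfold depQ
  rw [min_eq_right hx, max_eq_right hh]

theorem foldQ_of_le {h t : ℚ} (ht : t ≤ h) : foldQ h t = t := by
  unfold foldQ
  rw [if_pos ht]

theorem foldQ_of_gt {h t : ℚ} (ht : h < t) : foldQ h t = 2 * h - t := by
  unfold foldQ
  rw [if_neg (not_le.mpr ht)]

/-! ### The three regimes of Lemma D -/

theorem step_low {r s U V β b : L} {a c h : ℚ} (hr : Is O r a) (hs : Is O s c) (hβ : Is O β h)
    (hb : Is O b 0) (h2 : Is O (2 : L) 0)
    (hprod : U * V * (r - s) ^ 2 = (r * s - β) ^ 2)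
    (hsum : (U + V) * (r - s) ^ 2 = 2 * (r + s) * (r * s + β) + b * (r * s))
    (hc0 : 0 < c) (hch : c < h) (ha : a ≤ 0) :
    O.ord U = c ∧ O.ord V = c := by
  have hd : Is O (r - s) a := hr.sub (hs.ge le_rfl) (by linarith)
  have hrs' : Is O (r * s) (a + c) := hr.mul hs
  have hn : Is O (r * s - β) (a + c) := hrs'.sub (hβ.ge le_rfl) (by linarith)
  have hP : Is O (U * V) (2 * (a + c) - 2 * a) := Is.of_mul_eq hprod hn.sq hd.sq
  have hp1 : Is O (r + s) a := hr.add (hs.ge le_rfl) (by linarith)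
  have hp2 : Is O (r * s + β) (a + c) := hrs'.add (hβ.ge le_rfl) (by linarith)
  have hN : Ge O (2 * (r + s) * (r * s + β) + b * (r * s)) (2 * a + c) :=
    Ge.add (((h2.mul hp1).mul hp2).ge (by linarith)) ((hb.mul hrs').ge (by linarith))
  have hS : Ge O (U + V) (2 * a + c - 2 * a) := Ge.of_mul_eq hsum hN hd.sq
  have h' := newton_equal hP hS (by linarith)
  constructor <;> linarith [h'.1, h'.2]

theorem step_high {r s U V β b : L} {a c h : ℚ} (hr : Is O r a) (hs : Is O s c) (hβ : Is O β h)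
    (hb : Is O b 0) (h2 : Is O (2 : L) 0)
    (hprod : U * V * (r - s) ^ 2 = (r * s - β) ^ 2)
    (hsum : (U + V) * (r - s) ^ 2 = 2 * (r + s) * (r * s + β) + b * (r * s))
    (hc0 : 0 < c) (hch : c < h) (ha : h ≤ a) :
    O.ord U = h - c ∧ O.ord V = h - c := by
  have hd : Is O (r - s) c := Is.sub' (hr.ge le_rfl) hs (by linarith)
  have hrs' : Is O (r * s) (a + c) := hr.mul hs
  have hn : Is O (r * s - β) h := Is.sub' (hrs'.ge le_rfl) hβ (by linarith)
  have hP : Is O (U * V) (2 * h - 2 * c) := Is.of_mul_eq hprod hn.sq hd.sq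
  have hp1 : Is O (r + s) c := Is.add' (hr.ge le_rfl) hs (by linarith)
  have hp2 : Is O (r * s + β) h := Is.add' (hrs'.ge le_rfl) hβ (by linarith)
  have hN : Ge O (2 * (r + s) * (r * s + β) + b * (r * s)) (c + h) :=
    Ge.add (((h2.mul hp1).mul hp2).ge (by linarith)) ((hb.mul hrs').ge (by linarith))
  have hS : Ge O (U + V) (c + h - 2 * c) := Ge.of_mul_eq hsum hN hd.sq
  have h' := newton_equal hP hS (by linarith)
  constructor <;> linarith [h'.1, h'.2]

theorem step_mid {r s U V β b : L} {a c h : ℚ} (hr : Is O r a) (hs : Is O s c) (hβ : Is O β h)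
    (hb : Is O b 0) (h2 : Is O (2 : L) 0) (hU : U ≠ 0) (hV : V ≠ 0) (hrs : r ≠ s)
    (hprod : U * V * (r - s) ^ 2 = (r * s - β) ^ 2)
    (hsum : (U + V) * (r - s) ^ 2 = 2 * (r + s) * (r * s + β) + b * (r * s))
    (hc0 : 0 < c) (hch : c < h) (ha0 : 0 < a) (hah : a < h) :
    ∃ w t : ℚ, Is O (r - s) w ∧ min a c ≤ w ∧ (a ≠ c → w = min a c) ∧ min (a + c) h ≤ t ∧
      (a + c ≠ h → t = min (a + c) h) ∧
      ((O.ord U = a + c - 2 * w ∧ O.ord V = 2 * t - (a + c)) ∨
       (O.ord V = a + c - 2 * w ∧ O.ord U = 2 * t - (a + c))) := by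
  have hd0 : r - s ≠ 0 := sub_ne_zero.mpr hrs
  have hUV : U * V ≠ 0 := mul_ne_zero hU hV
  have hn0 : r * s - β ≠ 0 := by
    intro h0
    rw [h0, zero_pow two_ne_zero] at hprod
    exact (mul_ne_zero hUV (pow_ne_zero 2 hd0)) hprod
  have hd : Is O (r - s) (O.ord (r - s)) := is_self hd0
  have hn : Is O (r * s - β) (O.ord (r * s - β)) := is_self hn0
  have hrs' : Is O (r * s) (a + c) := hr.mul hs
  have hw : min a c ≤ O.ord (r - s) :=
    hd.le_of_ge (Ge.sub (hr.ge (min_le_left _ _)) (hs.ge (min_le_right _ _)))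
  have hw' : a ≠ c → O.ord (r - s) = min a c := by
    intro hne
    rcases lt_or_gt_of_ne hne with hlt | hgt
    · rw [min_eq_left hlt.le]; exact (hr.sub (hs.ge le_rfl) hlt).2
    · rw [min_eq_right hgt.le]; exact (Is.sub' (hr.ge le_rfl) hs hgt).2
  have ht : min (a + c) h ≤ O.ord (r * s - β) :=
    hn.le_of_ge (Ge.sub (hrs'.ge (min_le_left _ _)) (hβ.ge (min_le_right _ _)))
  have ht' : a + c ≠ h → O.ord (r * s - β) = min (a + c) h := by
    intro hne
    rcases lt_or_gt_of_ne hne with hlt | hgt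
    · rw [min_eq_left hlt.le]; exact (hrs'.sub (hβ.ge le_rfl) hlt).2
    · rw [min_eq_right hgt.le]; exact (Is.sub' (hrs'.ge le_rfl) hβ hgt).2
  refine ⟨O.ord (r - s), O.ord (r * s - β), hd, hw, hw', ht, ht', ?_⟩
  have hP : Is O (U * V) (2 * O.ord (r * s - β) - 2 * O.ord (r - s)) :=
    Is.of_mul_eq hprod hn.sq hd.sq
  have hp1 : Ge O (r + s) (min a c) := Ge.add (hr.ge (min_le_left _ _)) (hs.ge (min_le_right _ _))
  have hp2 : Ge O (r * s + β) (min (a + c) h) :=
    Ge.add (hrs'.ge (min_le_left _ _)) (hβ.ge (min_le_right _ _))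
  have hlt : a + c < 0 + min a c + min (a + c) h := by
    rcases le_total a c with h1 | h1 <;> rcases le_total (a + c) h with h3 | h3
    · rw [min_eq_left h1, min_eq_left h3]; linarith
    · rw [min_eq_left h1, min_eq_right h3]; linarith
    · rw [min_eq_right h1, min_eq_left h3]; linarith
    · rw [min_eq_right h1, min_eq_right h3]; linarith
  have hN : Is O (2 * (r + s) * (r * s + β) + b * (r * s)) (a + c) := by
    have h1 : Ge O (2 * (r + s) * (r * s + β)) (0 + min a c + min (a + c) h) :=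
      ((h2.ge le_rfl).mul hp1).mul hp2
    have h2' : Is O (b * (r * s)) (a + c) := by
      have h3 := hb.mul hrs'
      rw [zero_add] at h3
      exact h3
    exact Is.add' h1 h2' hlt
  have hS : Is O (U + V) (a + c - 2 * O.ord (r - s)) := Is.of_mul_eq hsum hN hd.sq
  have hkey : 2 * (a + c - 2 * O.ord (r - s)) <
      2 * O.ord (r * s - β) - 2 * O.ord (r - s) := by
    rcases le_total a c with h1 | h1 <;> rcases le_total (a + c) h with h3 | h3
    · rw [min_eq_left h1] at hw; rw [min_eq_left h3] at ht; linarith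
    · rw [min_eq_left h1] at hw; rw [min_eq_right h3] at ht; linarith
    · rw [min_eq_right h1] at hw; rw [min_eq_left h3] at ht; linarith
    · rw [min_eq_right h1] at hw; rw [min_eq_right h3] at ht; linarith
  rcases newton_distinct hP hS hkey with ⟨e1, e2⟩ | ⟨e1, e2⟩
  · left; exact ⟨e1, by rw [e2]; ring⟩
  · right; exact ⟨e1, by rw [e2]; ring⟩

theorem mid_vals {a c h w t : ℚ} (hc0 : 0 < c) (hch : c < h) (ha0 : 0 < a) (hah : a < h)
    (hw : min a c ≤ w) (hw' : a ≠ c → w = min a c) (ht : min (a + c) h ≤ t)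
    (ht' : a + c ≠ h → t = min (a + c) h) :
    depQ h (a + c - 2 * w) = |depQ h a - c| ∧
      depQ h (2 * t - (a + c)) = foldQ h (depQ h a + c) := by
  rw [depQ_of_mem ha0.le hah.le]
  constructor
  · rcases lt_trichotomy a c with hlt | heq | hgt
    · have e := hw' hlt.ne
      rw [min_eq_left hlt.le] at e
      rw [e, abs_of_neg (by linarith), depQ_of_mem (by linarith) (by linarith)]
      ring
    · rw [heq, min_self] at hw
      rw [heq, sub_self, abs_zero, depQ_of_nonpos (by linarith) (by linarith)]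
    · have e := hw' hgt.ne'
      rw [min_eq_right hgt.le] at e
      rw [e, abs_of_pos (by linarith), depQ_of_mem (by linarith) (by linarith)]
      ring
  · rcases lt_trichotomy (a + c) h with hlt | heq | hgt
    · have e := ht' hlt.ne
      rw [min_eq_left hlt.le] at e
      rw [e, foldQ_of_le hlt.le, depQ_of_mem (by linarith) (by linarith)]
      ring
    · rw [min_eq_left heq.le] at ht
      rw [foldQ_of_le heq.le, depQ_of_ge (by linarith) (by linarith)]
      linarith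
    · have e := ht' hgt.ne'
      rw [min_eq_right hgt.le] at e
      rw [e, foldQ_of_gt hgt, depQ_of_mem (by linarith) (by linarith)]

theorem double_core {s U β b : L} {c h : ℚ} (hs : Is O s c) (hβ : Is O β h) (hb : Is O b 0)
    (h2 : Is O (2 : L) 0) (hU : U ≠ 0)
    (hdbl : U * (4 * s ^ 3 + b * s ^ 2 + 4 * β * s) = (s ^ 2 - β) ^ 2)
    (hc0 : 0 < c) (hch : c < h) :
    depQ h (O.ord U) = foldQ h (c + c) := by
  have h4 : Is O (4 : L) 0 := is_four h2
  have hD : Is O (4 * s ^ 3 + b * s ^ 2 + 4 * β * s) (2 * c) := by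
    have t1 : Is O (4 * s ^ 3) (0 + 3 * c) := h4.mul hs.cube
    have t2 : Is O (b * s ^ 2) (0 + 2 * c) := hb.mul hs.sq
    have t3 : Is O (4 * β * s) (0 + h + c) := (h4.mul hβ).mul hs
    have t12 : Is O (4 * s ^ 3 + b * s ^ 2) (0 + 2 * c) :=
      Is.add' (t1.ge le_rfl) t2 (by linarith)
    have t123 := t12.add (t3.ge le_rfl) (by linarith)
    rw [zero_add] at t123
    exact t123
  have hn0 : s ^ 2 - β ≠ 0 := by
    intro h0
    rw [h0, zero_pow two_ne_zero] at hdbl
    exact (mul_ne_zero hU hD.1) hdbl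
  have hn := is_self (O := O) hn0
  have hU' : Is O U (2 * O.ord (s ^ 2 - β) - 2 * c) := Is.of_mul_eq hdbl hn.sq hD
  have ht : min (2 * c) h ≤ O.ord (s ^ 2 - β) :=
    hn.le_of_ge (Ge.sub (hs.sq.ge (min_le_left _ _)) (hβ.ge (min_le_right _ _)))
  rw [hU'.2]
  rcases lt_trichotomy (2 * c) h with hlt | heq | hgt
  · have e : O.ord (s ^ 2 - β) = 2 * c := (hs.sq.sub (hβ.ge le_rfl) hlt).2
    rw [e, foldQ_of_le (by linarith), depQ_of_mem (by linarith) (by linarith)]
    ring
  · rw [min_eq_left heq.le] at ht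
    rw [foldQ_of_le (by linarith), depQ_of_ge (by linarith) (by linarith)]
    linarith
  · have e : O.ord (s ^ 2 - β) = h := (Is.sub' (hs.sq.ge le_rfl) hβ hgt).2
    rw [e, foldQ_of_gt (by linarith), depQ_of_mem (by linarith) (by linarith)]
    ring

end Depth

/-- Lemma D: the folded-depth rule for `R ± Q` (generic position `r ≠ s`). -/
theorem depth_step {r s U V β b : L} (hr : r ≠ 0) (hs : s ≠ 0) (hU : U ≠ 0) (hV : V ≠ 0)
    (hβ0 : β ≠ 0) (hb : A.valuation b = 1) (h2 : A.valuation (2 : L) = 1) (hrs : r ≠ s)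
    (hprod : U * V * (r - s) ^ 2 = (r * s - β) ^ 2)
    (hsum : (U + V) * (r - s) ^ 2 = 2 * (r + s) * (r * s + β) + b * (r * s))
    (hc0 : 0 < O.ord s) (hch : O.ord s < O.ord β) :
    (depQ (O.ord β) (O.ord U) = foldQ (O.ord β) (depQ (O.ord β) (O.ord r) + O.ord s) ∧
      depQ (O.ord β) (O.ord V) = |depQ (O.ord β) (O.ord r) - O.ord s|) ∨
    (depQ (O.ord β) (O.ord U) = |depQ (O.ord β) (O.ord r) - O.ord s| ∧
      depQ (O.ord β) (O.ord V) = foldQ (O.ord β) (depQ (O.ord β) (O.ord r) + O.ord s)) := by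
  have hr' := Depth.is_self (O := O) hr
  have hs' := Depth.is_self (O := O) hs
  have hβ' := Depth.is_self (O := O) hβ0
  have hb' : Depth.Is O b 0 := Depth.is_of_valuation_eq_one hb
  have h2' : Depth.Is O (2 : L) 0 := Depth.is_of_valuation_eq_one h2
  rcases le_or_gt (O.ord r) 0 with ha0 | ha0
  · obtain ⟨eU, eV⟩ := Depth.step_low hr' hs' hβ' hb' h2' hprod hsum hc0 hch ha0
    left
    rw [eU, eV, Depth.depQ_of_nonpos (h := O.ord β) ha0 (by linarith),
      Depth.depQ_of_mem (h := O.ord β) hc0.le hch.le, zero_add, zero_sub, abs_neg,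
      abs_of_pos hc0, Depth.foldQ_of_le hch.le]
    exact ⟨rfl, rfl⟩
  rcases lt_or_ge (O.ord r) (O.ord β) with hah | hah
  · obtain ⟨w, t, -, hw, hw', ht, ht', hcases⟩ :=
      Depth.step_mid hr' hs' hβ' hb' h2' hU hV hrs hprod hsum hc0 hch ha0 hah
    obtain ⟨v1, v2⟩ := Depth.mid_vals hc0 hch ha0 hah hw hw' ht ht'
    rcases hcases with ⟨eU, eV⟩ | ⟨eV, eU⟩
    · right; rw [eU, eV]; exact ⟨v1, v2⟩
    · left; rw [eU, eV]; exact ⟨v2, v1⟩
  · obtain ⟨eU, eV⟩ := Depth.step_high hr' hs' hβ' hb' h2' hprod hsum hc0 hch hah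
    left
    rw [eU, eV, Depth.depQ_of_ge (h := O.ord β) hah (by linarith),
      Depth.depQ_of_mem (h := O.ord β) (x := O.ord β - O.ord s) (by linarith) (by linarith),
      Depth.foldQ_of_gt (h := O.ord β) (t := O.ord β + O.ord s) (by linarith),
      abs_of_pos (by linarith)]
    constructor <;> ring

/-- Lemma D': two points of the same depth whose `ξ` are congruent to first order. -/
theorem neg_ord_of_close {r s U V β b : L} (hr : r ≠ 0) (hs : s ≠ 0) (hU : U ≠ 0) (hV : V ≠ 0)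
    (hβ0 : β ≠ 0) (hb : A.valuation b = 1) (h2 : A.valuation (2 : L) = 1) (hrs : r ≠ s)
    (hprod : U * V * (r - s) ^ 2 = (r * s - β) ^ 2)
    (hsum : (U + V) * (r - s) ^ 2 = 2 * (r + s) * (r * s + β) + b * (r * s))
    (hc0 : 0 < O.ord s) (hch : O.ord s < O.ord β)
    (hrc : O.ord r = O.ord s) (hclose : O.ord s < O.ord (r - s)) :
    O.ord U < 0 ∨ O.ord V < 0 := by
  have hr' := Depth.is_self (O := O) hr
  have hs' := Depth.is_self (O := O) hs
  have hβ' := Depth.is_self (O := O) hβ0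
  have hb' : Depth.Is O b 0 := Depth.is_of_valuation_eq_one hb
  have h2' : Depth.Is O (2 : L) 0 := Depth.is_of_valuation_eq_one h2
  obtain ⟨w, t, hd, -, -, -, -, hcases⟩ :=
    Depth.step_mid hr' hs' hβ' hb' h2' hU hV hrs hprod hsum hc0 hch (by linarith) (by linarith)
  have hw : O.ord (r - s) = w := hd.2
  rcases hcases with ⟨eU, -⟩ | ⟨eV, -⟩
  · left; linarith
  · right; linarith

/-- Lemma D2: doubling. -/
theorem depth_double {s U β b : L} (hs : s ≠ 0) (hU : U ≠ 0) (hβ0 : β ≠ 0)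
    (hb : A.valuation b = 1) (h2 : A.valuation (2 : L) = 1)
    (hdbl : U * (4 * s ^ 3 + b * s ^ 2 + 4 * β * s) = (s ^ 2 - β) ^ 2)
    (hc0 : 0 < O.ord s) (hch : O.ord s < O.ord β) :
    depQ (O.ord β) (O.ord U) = foldQ (O.ord β) (O.ord s + O.ord s) :=
  Depth.double_core (Depth.is_self hs) (Depth.is_self hβ0) (Depth.is_of_valuation_eq_one hb)
    (Depth.is_of_valuation_eq_one h2) hU hdbl hc0 hch

/-- Deep points: the double has nonpositive order. -/
theorem ord_nonpos_of_deep {s U β b : L} (hU : U ≠ 0) (hβ0 : β ≠ 0)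
    (hb : A.valuation b ≤ 1) (h2 : A.valuation (2 : L) = 1)
    (hdbl : U * (4 * s ^ 3 + b * s ^ 2 + 4 * β * s) = (s ^ 2 - β) ^ 2)
    (hβpos : 0 < O.ord β) (hdeep : s = 0 ∨ O.ord β ≤ O.ord s) : O.ord U ≤ 0 := by
  have _hU := hU
  have hβ' := Depth.is_self (O := O) hβ0
  rcases eq_or_ne s 0 with hs0 | hs
  · exfalso
    rw [hs0] at hdbl
    have e : U * (4 * (0 : L) ^ 3 + b * 0 ^ 2 + 4 * β * 0) = 0 := by ring
    rw [e] at hdbl
    have e2 : ((0 : L) ^ 2 - β) ^ 2 = β ^ 2 := by ring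
    rw [e2] at hdbl
    exact (pow_ne_zero 2 hβ0) hdbl.symm
  have hcs : O.ord β ≤ O.ord s := hdeep.resolve_left hs
  have hs' := Depth.is_self (O := O) hs
  have hb' : Depth.Ge O b 0 := Depth.ge_of_valuation_le_one hb
  have h2' : Depth.Is O (2 : L) 0 := Depth.is_of_valuation_eq_one h2
  have h4' : Depth.Is O (4 : L) 0 := Depth.is_four h2'
  have hn : Depth.Is O (s ^ 2 - β) (O.ord β) :=
    Depth.Is.sub' (hs'.sq.ge le_rfl) hβ' (by linarith)
  have hN := hn.sq
  have hDge : Depth.Ge O (4 * s ^ 3 + b * s ^ 2 + 4 * β * s) (2 * O.ord β) := by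
    have t1 : Depth.Is O (4 * s ^ 3) (0 + 3 * O.ord s) := h4'.mul hs'.cube
    have t2 : Depth.Ge O (b * s ^ 2) (0 + 2 * O.ord s) := hb'.mul (hs'.sq.ge le_rfl)
    have t3 : Depth.Is O (4 * β * s) (0 + O.ord β + O.ord s) := (h4'.mul hβ').mul hs'
    exact ((t1.ge (by linarith)).add (t2.mono (by linarith))).add (t3.ge (by linarith))
  have hD0 : 4 * s ^ 3 + b * s ^ 2 + 4 * β * s ≠ 0 := by
    intro h0
    rw [h0, mul_zero] at hdbl
    exact hN.1 hdbl.symm
  have hD := Depth.is_self (O := O) hD0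
  have hle := hD.le_of_ge hDge
  have hU' := Depth.Is.of_mul_eq hdbl hN hD
  rw [hU'.2]
  linarith

end Fermat.Agent.S05
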