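import Fermat.Agent.S05.Defs

set_option autoImplicit false

namespace Fermat.Agent.S05

open WeierstrassCurve

variable {L : Type*} [Field L] [DecidableEq L] [CharZero L] {W : Affine L} {x0 : L}

omit [DecidableEq L] in
/-- Abstract algebra behind (F2): sum of the two shifted abscissas. -/
theorem FormulasAdd.alg_add {U V s t p q b c : L}
    (ha : 4 * U * (s - t) ^ 2 = (p - q) ^ 2 - (b + 4 * s + 4 * t) * (s - t) ^ 2)
    (hb : 4 * V * (s - t) ^ 2 = (p + q) ^ 2 - (b + 4 * s + 4 * t) * (s - t) ^ 2)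
    (hp : p ^ 2 = 4 * s ^ 3 + b * s ^ 2 + 4 * c * s)
    (hq : q ^ 2 = 4 * t ^ 3 + b * t ^ 2 + 4 * c * t) :
    (U + V) * (s - t) ^ 2 = 2 * (s + t) * (s * t + c) + b * (s * t) := by
  linear_combination (1 / 4 : L) * ha + (1 / 4 : L) * hb + (1 / 2 : L) * hp + (1 / 2 : L) * hq

omit [DecidableEq L] in
/-- Abstract algebra behind (F1): product of the two shifted abscissas. -/
theorem FormulasAdd.alg_mul {U V s t p q b c : L}
    (ha : 4 * U * (s - t) ^ 2 = (p - q) ^ 2 - (b + 4 * s + 4 * t) * (s - t) ^ 2)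
    (hb : 4 * V * (s - t) ^ 2 = (p + q) ^ 2 - (b + 4 * s + 4 * t) * (s - t) ^ 2)
    (hp : p ^ 2 = 4 * s ^ 3 + b * s ^ 2 + 4 * c * s)
    (hq : q ^ 2 = 4 * t ^ 3 + b * t ^ 2 + 4 * c * t)
    (hst : s ≠ t) :
    U * V * (s - t) ^ 2 = (s * t - c) ^ 2 := by
  have hD : (s - t) ^ 2 ≠ 0 := pow_ne_zero 2 (sub_ne_zero.mpr hst)
  have h16 : (16 : L) * (s - t) ^ 2 ≠ 0 := mul_ne_zero (by norm_num) hD
  have key : (16 : L) * (s - t) ^ 2 * (U * V * (s - t) ^ 2 - (s * t - c) ^ 2) = 0 := by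
    linear_combination
      (4 * V * (s - t) ^ 2) * ha
        + ((p - q) ^ 2 - (b + 4 * s + 4 * t) * (s - t) ^ 2) * hb
        + ((p ^ 2 - q ^ 2 + (4 * s ^ 3 + b * s ^ 2 + 4 * c * s)
              - (4 * t ^ 3 + b * t ^ 2 + 4 * c * t))
            - 2 * (b + 4 * s + 4 * t) * (s - t) ^ 2) * hp
        + (-(p ^ 2 - q ^ 2 + (4 * s ^ 3 + b * s ^ 2 + 4 * c * s)
              - (4 * t ^ 3 + b * t ^ 2 + 4 * c * t))
            - 2 * (b + 4 * s + 4 * t) * (s - t) ^ 2) * hq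
  exact sub_eq_zero.mp ((mul_eq_zero.mp key).resolve_left h16)

omit [DecidableEq L] [CharZero L] in
/-- The chord formula for `P + Q` in the coordinates `x - x0`, `2y + a₁x + a₃`. -/
theorem FormulasAdd.aux_add {x₁ x₂ : L} (y₁ y₂ : L) (hx : x₁ ≠ x₂) :
    4 * (W.addX x₁ x₂ ((y₁ - y₂) / (x₁ - x₂)) - x0) * ((x₁ - x0) - (x₂ - x0)) ^ 2 =
      ((2 * y₁ + W.a₁ * x₁ + W.a₃) - (2 * y₂ + W.a₁ * x₂ + W.a₃)) ^ 2
        - (b2' W x0 + 4 * (x₁ - x0) + 4 * (x₂ - x0)) * ((x₁ - x0) - (x₂ - x0)) ^ 2 := by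
  have hne : x₁ - x₂ ≠ 0 := sub_ne_zero.mpr hx
  simp only [Affine.addX, b2', WeierstrassCurve.b₂]
  field_simp
  ring

omit [DecidableEq L] [CharZero L] in
/-- The chord formula for `P - Q` in the coordinates `x - x0`, `2y + a₁x + a₃`. -/
theorem FormulasAdd.aux_sub {x₁ x₂ : L} (y₁ y₂ : L) (hx : x₁ ≠ x₂) :
    4 * (W.addX x₁ x₂ ((y₁ - W.negY x₂ y₂) / (x₁ - x₂)) - x0) * ((x₁ - x0) - (x₂ - x0)) ^ 2 =
      ((2 * y₁ + W.a₁ * x₁ + W.a₃) + (2 * y₂ + W.a₁ * x₂ + W.a₃)) ^ 2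
        - (b2' W x0 + 4 * (x₁ - x0) + 4 * (x₂ - x0)) * ((x₁ - x0) - (x₂ - x0)) ^ 2 := by
  have hne : x₁ - x₂ ≠ 0 := sub_ne_zero.mpr hx
  simp only [Affine.addX, Affine.negY, b2', WeierstrassCurve.b₂]
  field_simp
  ring

omit [DecidableEq L] in
/-- On the curve, `(2y + a₁x + a₃)² = fxi (x - x0)` when `x0` is a root of the two-torsion cubic. -/
theorem FormulasAdd.aux_eta_sq (hx0 : twoTors W x0 = 0) {x y : L} (h : W.Equation x y) :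
    (2 * y + W.a₁ * x + W.a₃) ^ 2 =
      4 * (x - x0) ^ 3 + b2' W x0 * (x - x0) ^ 2 + 4 * beta W x0 * (x - x0) := by
  have hEq := (Affine.equation_iff x y).mp h
  simp only [twoTors, WeierstrassCurve.b₂, WeierstrassCurve.b₄, WeierstrassCurve.b₆] at hx0
  simp only [beta, b2', WeierstrassCurve.b₂, WeierstrassCurve.b₄]
  linear_combination 4 * hEq + hx0

omit [CharZero L] in
/-- `xi` of a sum of two affine points with distinct abscissas. -/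
theorem FormulasAdd.xi_add_some {x₁ x₂ y₁ y₂ : L} (h₁ : W.Nonsingular x₁ y₁)
    (h₂ : W.Nonsingular x₂ y₂) (hx : x₁ ≠ x₂) :
    xi W x0 (Affine.Point.some x₁ y₁ h₁ + Affine.Point.some x₂ y₂ h₂) =
      W.addX x₁ x₂ ((y₁ - y₂) / (x₁ - x₂)) - x0 := by
  rw [Affine.Point.add_of_X_ne hx]
  show W.addX x₁ x₂ (W.slope x₁ x₂ y₁ y₂) - x0 = _
  rw [Affine.slope_of_X_ne hx]

omit [CharZero L] in
/-- `xi` of a difference of two affine points with distinct abscissas. -/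
theorem FormulasAdd.xi_sub_some {x₁ x₂ y₁ y₂ : L} (h₁ : W.Nonsingular x₁ y₁)
    (h₂ : W.Nonsingular x₂ y₂) (hx : x₁ ≠ x₂) :
    xi W x0 (Affine.Point.some x₁ y₁ h₁ - Affine.Point.some x₂ y₂ h₂) =
      W.addX x₁ x₂ ((y₁ - W.negY x₂ y₂) / (x₁ - x₂)) - x0 := by
  rw [sub_eq_add_neg, Affine.Point.neg_some, Affine.Point.add_of_X_ne hx]
  show W.addX x₁ x₂ (W.slope x₁ x₂ y₁ (W.negY x₂ y₂)) - x0 = _
  rw [Affine.slope_of_X_ne hx]

/-- (F1) -/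
theorem xi_add_mul_xi_sub (hx0 : twoTors W x0 = 0) {P Q : W.Point} (hP : P ≠ 0) (hQ : Q ≠ 0)
    (h : xi W x0 P ≠ xi W x0 Q) :
    xi W x0 (P + Q) * xi W x0 (P - Q) * (xi W x0 P - xi W x0 Q) ^ 2 =
      (xi W x0 P * xi W x0 Q - beta W x0) ^ 2 := by
  rcases P with _ | ⟨x₁, y₁, h₁⟩
  · exact absurd rfl hP
  rcases Q with _ | ⟨x₂, y₂, h₂⟩
  · exact absurd rfl hQ
  have hx : x₁ ≠ x₂ := fun e => h (by rw [xi, xi, e])
  rw [FormulasAdd.xi_add_some h₁ h₂ hx, FormulasAdd.xi_sub_some h₁ h₂ hx]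
  exact FormulasAdd.alg_mul (FormulasAdd.aux_add y₁ y₂ hx) (FormulasAdd.aux_sub y₁ y₂ hx)
    (FormulasAdd.aux_eta_sq hx0 h₁.1) (FormulasAdd.aux_eta_sq hx0 h₂.1) h

/-- (F2) -/
theorem xi_add_add_xi_sub (hx0 : twoTors W x0 = 0) {P Q : W.Point} (hP : P ≠ 0) (hQ : Q ≠ 0)
    (h : xi W x0 P ≠ xi W x0 Q) :
    (xi W x0 (P + Q) + xi W x0 (P - Q)) * (xi W x0 P - xi W x0 Q) ^ 2 =
      2 * (xi W x0 P + xi W x0 Q) * (xi W x0 P * xi W x0 Q + beta W x0) +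
        b2' W x0 * (xi W x0 P * xi W x0 Q) := by
  rcases P with _ | ⟨x₁, y₁, h₁⟩
  · exact absurd rfl hP
  rcases Q with _ | ⟨x₂, y₂, h₂⟩
  · exact absurd rfl hQ
  have hx : x₁ ≠ x₂ := fun e => h (by rw [xi, xi, e])
  rw [FormulasAdd.xi_add_some h₁ h₂ hx, FormulasAdd.xi_sub_some h₁ h₂ hx]
  exact FormulasAdd.alg_add (FormulasAdd.aux_add y₁ y₂ hx) (FormulasAdd.aux_sub y₁ y₂ hx)
    (FormulasAdd.aux_eta_sq hx0 h₁.1) (FormulasAdd.aux_eta_sq hx0 h₂.1)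

end Fermat.Agent.S05
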