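import Fermat.Agent.S05.Defs

set_option autoImplicit false

namespace Fermat.Agent.S05

open WeierstrassCurve

variable {L : Type*} [Field L] [DecidableEq L] [CharZero L] {W : Affine L} {x0 : L}

omit [DecidableEq L] in
/-- Abstract algebra behind the duplication formula. -/
theorem FormulasDouble.alg (U ξ η b β : L)
    (h1 : 4 * U * η ^ 2 = (6 * ξ ^ 2 + b * ξ + 2 * β) ^ 2 - (b + 8 * ξ) * η ^ 2)
    (h2 : η ^ 2 = 4 * ξ ^ 3 + b * ξ ^ 2 + 4 * β * ξ) :
    U * (4 * ξ ^ 3 + b * ξ ^ 2 + 4 * β * ξ) = (ξ ^ 2 - β) ^ 2 := by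
  have h4 : (4 : L) ≠ 0 := by norm_num
  apply mul_left_cancel₀ h4
  linear_combination h1 - (4 * U + b + 8 * ξ) * h2

omit [DecidableEq L] in
/-- `4 * beta` without the division. -/
theorem FormulasDouble.four_beta (W : Affine L) (x0 : L) :
    4 * beta W x0 = 12 * x0 ^ 2 + 2 * W.b₂ * x0 + 2 * W.b₄ := by
  have h4 : (4 : L) ≠ 0 := by norm_num
  unfold beta
  exact mul_div_cancel₀ _ h4

omit [DecidableEq L] in
/-- On the curve, `η ^ 2 = fxi ξ` when `x0` is a root of the two-torsion cubic. -/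
theorem FormulasDouble.eta_sq (hx0 : twoTors W x0 = 0) {x y : L} (h : W.Equation x y) :
    (2 * y + W.a₁ * x + W.a₃) ^ 2 = fxi W x0 (x - x0) := by
  have he := (W.equation_iff x y).mp h
  have hβ := FormulasDouble.four_beta W x0
  unfold twoTors at hx0
  unfold fxi b2'
  simp only [WeierstrassCurve.b₂, WeierstrassCurve.b₄, WeierstrassCurve.b₆] at hx0 hβ ⊢
  linear_combination 4 * he + hx0 - (x - x0) * hβ

omit [DecidableEq L] in
/-- The tangent-line formula for `4 * (addX - x0)`, cleared of denominators; a pure identity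
in which the slope `ℓ` only enters through `ℓ * η = 3x² + 2a₂x + a₄ - a₁y`. -/
theorem FormulasDouble.four_addX (W : Affine L) (x0 x y ℓ : L)
    (hℓ : ℓ * (2 * y + W.a₁ * x + W.a₃) = 3 * x ^ 2 + 2 * W.a₂ * x + W.a₄ - W.a₁ * y) :
    4 * (W.addX x x ℓ - x0) * (2 * y + W.a₁ * x + W.a₃) ^ 2 =
      (6 * (x - x0) ^ 2 + b2' W x0 * (x - x0) + 2 * beta W x0) ^ 2 -
        (b2' W x0 + 8 * (x - x0)) * (2 * y + W.a₁ * x + W.a₃) ^ 2 := by
  have hβ := FormulasDouble.four_beta W x0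
  unfold b2'
  simp only [Affine.addX, WeierstrassCurve.b₂, WeierstrassCurve.b₄] at hβ ⊢
  linear_combination
    4 * (ℓ * (2 * y + W.a₁ * x + W.a₃) + (3 * x ^ 2 + 2 * W.a₂ * x + W.a₄ - W.a₁ * y) +
        W.a₁ * (2 * y + W.a₁ * x + W.a₃)) * hℓ -
      (6 * x ^ 2 + (W.a₁ ^ 2 + 4 * W.a₂) * x + (2 * W.a₄ + W.a₁ * W.a₃) + beta W x0 -
        (6 * x0 ^ 2 + (W.a₁ ^ 2 + 4 * W.a₂) * x0 + (2 * W.a₄ + W.a₁ * W.a₃)) / 2) * hβ

/-- (F3) -/
theorem xi_double (hx0 : twoTors W x0 = 0) {P : W.Point} (hP : P ≠ 0) (h2 : P + P ≠ 0) :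
    xi W x0 (P + P) * fxi W x0 (xi W x0 P) = (xi W x0 P ^ 2 - beta W x0) ^ 2 := by
  rcases P with _ | ⟨x, y, hns⟩
  · exact absurd rfl hP
  · have hy : y ≠ W.negY x y := fun hy => h2 (Affine.Point.add_self_of_Y_eq hy)
    have hYη : y - W.negY x y = 2 * y + W.a₁ * x + W.a₃ := by
      simp only [Affine.negY]
      ring
    have hη : 2 * y + W.a₁ * x + W.a₃ ≠ 0 := by
      rw [← hYη]
      exact sub_ne_zero.mpr hy
    have hℓ : W.slope x x y y * (2 * y + W.a₁ * x + W.a₃) =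
        3 * x ^ 2 + 2 * W.a₂ * x + W.a₄ - W.a₁ * y := by
      rw [Affine.slope_of_Y_ne rfl hy, hYη]
      exact div_mul_cancel₀ _ hη
    have h1 := FormulasDouble.four_addX W x0 x y (W.slope x x y y) hℓ
    have h3 : (2 * y + W.a₁ * x + W.a₃) ^ 2 =
        4 * (x - x0) ^ 3 + b2' W x0 * (x - x0) ^ 2 + 4 * beta W x0 * (x - x0) :=
      FormulasDouble.eta_sq hx0 hns.1
    rw [Affine.Point.add_self_of_Y_ne hy]
    exact FormulasDouble.alg _ _ _ _ _ h1 h3

end Fermat.Agent.S05
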