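import Fermat.Agent.S05.FormulasBasic
import Fermat.Agent.S05.FormulasAdd
import Fermat.Agent.S05.FormulasDouble

/-!
x-coordinate identities for the point addition on a Weierstrass curve
(collected from `FormulasBasic`, `FormulasAdd`, `FormulasDouble`):
`xi_neg`, `eta_neg`, `eta_sq`, `eq_or_eq_neg_of_xi_eq`, `eq_of_xi_eq_of_eta_eq`,
`add_self_eq_zero_iff_eta`, `add_ne_zero_of_xi_ne`, `xi_add_mul_xi_sub` (F1),
`xi_add_add_xi_sub` (F2), `xi_double` (F3), `delta_eq`, `delta_eq'`.
-/
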