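import Fermat.Agent.S05.Defs

set_option autoImplicit false

namespace Fermat.Agent.S05

open WeierstrassCurve

variable {L : Type*} [Field L] [DecidableEq L] [CharZero L] {W : Affine L} {x0 : L}

set_option linter.unusedSectionVars false

/-- `4 * beta` without the division. -/
theorem FormulasBasic.four_mul_beta (W : WeierstrassCurve L) (x0 : L) :
    4 * beta W x0 = 12 * x0 ^ 2 + 2 * W.b₂ * x0 + 2 * W.b₄ := by
  unfold beta
  ring

/-- Taylor shift of the two-torsion cubic at `x0`. -/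
theorem FormulasBasic.twoTors_eq_fxi_add (W : WeierstrassCurve L) (x0 x : L) :
    twoTors W x = fxi W x0 (x - x0) + twoTors W x0 := by
  unfold fxi twoTors b2'
  linear_combination (-(x - x0)) * FormulasBasic.four_mul_beta W x0

/-- On the curve, `η ^ 2` is the two-torsion cubic at `x`. -/
theorem FormulasBasic.eta_sq_eq_twoTors {x y : L} (h : W.Equation x y) :
    (2 * y + W.a₁ * x + W.a₃) ^ 2 = twoTors W x := by
  have h' := (W.equation_iff x y).mp h
  unfold twoTors
  simp only [WeierstrassCurve.b₂, WeierstrassCurve.b₄, WeierstrassCurve.b₆]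
  linear_combination 4 * h'

theorem xi_neg (P : W.Point) : xi W x0 (-P) = xi W x0 P := by
  rcases P with _ | ⟨x, y, h⟩
  · rfl
  · rfl

theorem eta_neg (P : W.Point) : eta W (-P) = -eta W P := by
  rcases P with _ | ⟨x, y, h⟩
  · exact neg_zero.symm
  · show 2 * W.negY x y + W.a₁ * x + W.a₃ = -(2 * y + W.a₁ * x + W.a₃)
    rw [Affine.negY]
    ring

theorem eta_sq (hx0 : twoTors W x0 = 0) {P : W.Point} (hP : P ≠ 0) :
    eta W P ^ 2 = fxi W x0 (xi W x0 P) := by
  rcases P with _ | ⟨x, y, h⟩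
  · exact absurd rfl hP
  · show (2 * y + W.a₁ * x + W.a₃) ^ 2 = fxi W x0 (x - x0)
    rw [FormulasBasic.eta_sq_eq_twoTors h.1, FormulasBasic.twoTors_eq_fxi_add W x0 x, hx0,
      add_zero]

theorem eq_or_eq_neg_of_xi_eq {P Q : W.Point} (hP : P ≠ 0) (hQ : Q ≠ 0)
    (h : xi W x0 P = xi W x0 Q) : P = Q ∨ P = -Q := by
  rcases P with _ | ⟨x₁, y₁, h₁⟩
  · exact absurd rfl hP
  rcases Q with _ | ⟨x₂, y₂, h₂⟩
  · exact absurd rfl hQ
  have hx : x₁ = x₂ := sub_left_injective h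
  exact Affine.Point.X_eq_iff.mp hx

theorem eq_of_xi_eq_of_eta_eq {P Q : W.Point} (hP : P ≠ 0) (hQ : Q ≠ 0)
    (h : xi W x0 P = xi W x0 Q) (h' : eta W P = eta W Q) : P = Q := by
  rcases P with _ | ⟨x₁, y₁, h₁⟩
  · exact absurd rfl hP
  rcases Q with _ | ⟨x₂, y₂, h₂⟩
  · exact absurd rfl hQ
  have hx : x₁ = x₂ := sub_left_injective h
  subst hx
  have h'' : 2 * y₁ + W.a₁ * x₁ + W.a₃ = 2 * y₂ + W.a₁ * x₁ + W.a₃ := h'
  have hy : y₁ = y₂ := by
    have h2 : (2 : L) * (y₁ - y₂) = 0 := by linear_combination h''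
    have := (mul_eq_zero.mp h2).resolve_left two_ne_zero
    exact sub_eq_zero.mp this
  subst hy
  rfl

theorem add_self_eq_zero_iff_eta {P : W.Point} (hP : P ≠ 0) : P + P = 0 ↔ eta W P = 0 := by
  rcases P with _ | ⟨x, y, h⟩
  · exact absurd rfl hP
  show Affine.Point.some x y h + Affine.Point.some x y h = 0 ↔ 2 * y + W.a₁ * x + W.a₃ = 0
  constructor
  · intro hadd
    by_contra hne
    have hy : y ≠ W.negY x y := by
      intro hy
      apply hne
      rw [Affine.negY] at hy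
      linear_combination hy
    rw [Affine.Point.add_self_of_Y_ne hy] at hadd
    exact Affine.Point.some_ne_zero _ hadd
  · intro heta
    have hy : y = W.negY x y := by
      rw [Affine.negY]
      linear_combination heta
    exact Affine.Point.add_self_of_Y_eq hy

theorem add_ne_zero_of_xi_ne {P Q : W.Point} (hP : P ≠ 0) (hQ : Q ≠ 0)
    (h : xi W x0 P ≠ xi W x0 Q) : P + Q ≠ 0 ∧ P - Q ≠ 0 := by
  rcases P with _ | ⟨x₁, y₁, h₁⟩
  · exact absurd rfl hP
  rcases Q with _ | ⟨x₂, y₂, h₂⟩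
  · exact absurd rfl hQ
  have hx : x₁ ≠ x₂ := by
    intro hx
    apply h
    show x₁ - x0 = x₂ - x0
    rw [hx]
  constructor
  · rw [Affine.Point.add_of_X_ne hx]
    exact Affine.Point.some_ne_zero _
  · rw [sub_eq_add_neg, Affine.Point.neg_some, Affine.Point.add_of_X_ne hx]
    exact Affine.Point.some_ne_zero _

theorem delta_eq (hx0 : twoTors W x0 = 0) :
    W.Δ = beta W x0 ^ 2 * (b2' W x0 ^ 2 - 64 * beta W x0) := by
  have hrel := W.b_relation
  unfold twoTors at hx0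
  unfold beta b2'
  rw [WeierstrassCurve.Δ]
  linear_combination (exp := 1)
    (-27 * W.b₆ + 27 * (4 * x0 ^ 3 + W.b₂ * x0 ^ 2 + 2 * W.b₄ * x0) + 9 * W.b₂ * W.b₄
      - W.b₂ ^ 3 / 4) * hx0 - W.b₂ ^ 2 / 4 * hrel

theorem delta_eq' (hx0 : twoTors W x0 = 0) (t : L) :
    W.Δ = beta W x0 * (b2' W x0 - 8 * t) *
        (fxi W x0 t - (4 * t + b2' W x0) * (t ^ 2 - beta W x0)) +
      64 * beta W x0 ^ 2 * (t ^ 2 - beta W x0) := by
  rw [delta_eq hx0]
  unfold fxi
  ring

end Fermat.Agent.S05
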