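import Fermat.Agent.S05.Formulas

set_option autoImplicit false

namespace Fermat.Agent.S05

open WeierstrassCurve

namespace KerRed

variable {L : Type*} [Field L] (A : ValuationSubring L)

theorem aux_small_mul {a w : L} (ha : A.valuation a ≤ 1) (hw : A.valuation w < 1) :
    A.valuation (a * w) < 1 := by
  rw [map_mul]
  exact mul_lt_one_of_nonneg_of_lt_one_right ha zero_le hw

theorem aux_ne_zero {x : L} (hx : 1 < A.valuation x) : x ≠ 0 := by
  rintro rfl
  simp at hx

theorem aux_inv_small {x : L} (hx : 1 < A.valuation x) : A.valuation x⁻¹ < 1 := by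
  rw [map_inv₀]
  exact inv_lt_one_of_one_lt₀ hx

theorem aux_double {β b x X2 : L} (hβ : A.valuation β ≤ 1) (hb : A.valuation b ≤ 1)
    (hx : 1 < A.valuation x)
    (h : X2 * (4 * x ^ 3 + b * x ^ 2 + 4 * β * x) = (x ^ 2 - β) ^ 2) :
    X2 ≠ 0 ∧ A.valuation (x / X2 - 4) < 1 := by
  have hx0 : x ≠ 0 := aux_ne_zero A hx
  have hint : ∀ z ∈ A, b + 12 * β * z - 4 * β ^ 2 * z ^ 3 ∈ A := by
    have hβA : β ∈ A := (A.valuation_le_one_iff _).mp hβ
    have hbA : b ∈ A := (A.valuation_le_one_iff _).mp hb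
    intro z hz
    aesop
  obtain ⟨z, hz⟩ : ∃ z, z = x⁻¹ := ⟨_, rfl⟩
  have hzv : A.valuation z < 1 := hz ▸ aux_inv_small A hx
  have hzA : z ∈ A := (A.valuation_le_one_iff _).mp hzv.le
  have hβA : β ∈ A := (A.valuation_le_one_iff _).mp hβ
  have hbA : b ∈ A := (A.valuation_le_one_iff _).mp hb
  have hw : A.valuation (β * z ^ 2) < 1 := by
    rw [pow_two, ← mul_assoc]
    exact aux_small_mul A ((A.valuation_le_one_iff _).mpr (mul_mem hβA hzA)) hzv
  have hD : A.valuation (1 - β * z ^ 2) = 1 := Valuation.map_one_sub_of_lt _ hw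
  have hD0 : (1 - β * z ^ 2) ≠ 0 := by
    intro h0
    rw [h0] at hD
    simp at hD
  have hR : x ^ 2 - β ≠ 0 := by
    have : x ^ 2 - β = x ^ 2 * (1 - β * z ^ 2) := by
      rw [hz]
      field_simp
    rw [this]
    exact mul_ne_zero (pow_ne_zero _ hx0) hD0
  have hX2 : X2 ≠ 0 := by
    rintro rfl
    rw [zero_mul] at h
    exact pow_ne_zero 2 hR h.symm
  refine ⟨hX2, ?_⟩
  have hf : 4 * x ^ 3 + b * x ^ 2 + 4 * β * x ≠ 0 := by
    intro h0
    rw [h0, mul_zero] at h
    exact pow_ne_zero 2 hR h.symm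
  have key : (x / X2 - 4) * (1 - β * z ^ 2) ^ 2 = (b + 12 * β * z - 4 * β ^ 2 * z ^ 3) * z := by
    have hX2' : X2 = (x ^ 2 - β) ^ 2 / (4 * x ^ 3 + b * x ^ 2 + 4 * β * x) :=
      eq_div_of_mul_eq hf h
    rw [hX2', hz]
    field_simp
    ring
  have hN : A.valuation ((b + 12 * β * z - 4 * β ^ 2 * z ^ 3) * z) < 1 := by
    exact aux_small_mul A ((A.valuation_le_one_iff _).mpr (hint z hzA)) hzv
  have : A.valuation (x / X2 - 4) = A.valuation ((x / X2 - 4) * (1 - β * z ^ 2) ^ 2) := by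
    rw [map_mul, map_pow, hD, one_pow, mul_one]
  rw [this, key]
  exact hN

theorem aux_key_identity (x y β b : L) (hx : x ≠ 0) (hy : y ≠ 0) (hR : y * x - β ≠ 0) :
    (x * (2 * (y + x) * (y * x + β) + b * (y * x)) / (y * x - β) ^ 2 - 2 * (x / y) - 2) *
      (1 - β * (x / y) * x⁻¹ * x⁻¹) ^ 2 =
    2 * (1 + x / y) * (3 - β * (x / y) * x⁻¹ * x⁻¹) * (β * (x / y) * x⁻¹ * x⁻¹) +
      b * (x / y) * x⁻¹ := by
  obtain ⟨R, hRdef⟩ : ∃ R, R = y * x - β := ⟨_, rfl⟩
  have hβR : β = y * x - R := by rw [hRdef]; ring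
  rw [← hRdef] at hR ⊢
  subst hβR
  field_simp
  ring

theorem aux_step {β b x y U V : L} (hβ : A.valuation β ≤ 1) (hb : A.valuation b ≤ 1)
    (hx : 1 < A.valuation x) (hy : y ≠ 0) (hty : A.valuation (x / y) ≤ 1) (hV : V ≠ 0)
    (h1 : U * V * (y - x) ^ 2 = (y * x - β) ^ 2)
    (h2 : (U + V) * (y - x) ^ 2 = 2 * (y + x) * (y * x + β) + b * (y * x)) :
    U ≠ 0 ∧ A.valuation (x / U + x / V - 2 * (x / y) - 2) < 1 := by
  have hx0 : x ≠ 0 := aux_ne_zero A hx
  have hint : ∀ t ∈ A, ∀ z ∈ A, ∀ w ∈ A,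
      2 * (1 + t) * (3 - w) ∈ A ∧ b * t ∈ A ∧ β * t * z ∈ A := by
    have hβA : β ∈ A := (A.valuation_le_one_iff _).mp hβ
    have hbA : b ∈ A := (A.valuation_le_one_iff _).mp hb
    intro t ht z hz w hw
    refine ⟨?_, ?_, ?_⟩ <;> aesop
  obtain ⟨z, hz⟩ : ∃ z, z = x⁻¹ := ⟨_, rfl⟩
  obtain ⟨t, ht⟩ : ∃ t, t = x / y := ⟨_, rfl⟩
  have hzv : A.valuation z < 1 := hz ▸ aux_inv_small A hx
  have hzA : z ∈ A := (A.valuation_le_one_iff _).mp hzv.le
  have htA : t ∈ A := (A.valuation_le_one_iff _).mp (ht ▸ hty)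
  have hw : A.valuation (β * t * z * z) < 1 :=
    aux_small_mul A ((A.valuation_le_one_iff _).mpr (hint t htA z hzA 0 (zero_mem A)).2.2) hzv
  have hwA : β * t * z * z ∈ A := (A.valuation_le_one_iff _).mp hw.le
  have hD : A.valuation (1 - β * t * z * z) = 1 := Valuation.map_one_sub_of_lt _ hw
  have hD0 : (1 - β * t * z * z) ≠ 0 := by
    intro h0
    rw [h0] at hD
    simp at hD
  have hR : y * x - β ≠ 0 := by
    have : y * x - β = y * x * (1 - β * t * z * z) := by
      rw [hz, ht]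
      field_simp
    rw [this]
    exact mul_ne_zero (mul_ne_zero hy hx0) hD0
  have hU : U ≠ 0 := by
    rintro rfl
    rw [zero_mul, zero_mul] at h1
    exact pow_ne_zero 2 hR h1.symm
  have hyx : y - x ≠ 0 := by
    intro h0
    rw [h0] at h1
    exact pow_ne_zero 2 hR (by simpa using h1.symm)
  refine ⟨hU, ?_⟩
  have hsum : x / U + x / V =
      x * (2 * (y + x) * (y * x + β) + b * (y * x)) / (y * x - β) ^ 2 := by
    rw [← h1, ← h2]
    field_simp
    ring
  have key : (x / U + x / V - 2 * (x / y) - 2) * (1 - β * t * z * z) ^ 2 =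
      2 * (1 + t) * (3 - β * t * z * z) * (β * t * z * z) + b * t * z := by
    rw [hsum, hz, ht]
    exact aux_key_identity x y β b hx0 hy hR
  have hN : A.valuation
      (2 * (1 + t) * (3 - β * t * z * z) * (β * t * z * z) + b * t * z) < 1 := by
    obtain ⟨hi1, hi2, -⟩ := hint t htA z hzA _ hwA
    exact Valuation.map_add_lt _
      (aux_small_mul A ((A.valuation_le_one_iff _).mpr hi1) hw)
      (aux_small_mul A ((A.valuation_le_one_iff _).mpr hi2) hzv)
  have : A.valuation (x / U + x / V - 2 * (x / y) - 2) =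
      A.valuation ((x / U + x / V - 2 * (x / y) - 2) * (1 - β * t * z * z) ^ 2) := by
    rw [map_mul, map_pow, hD, one_pow, mul_one]
  rw [this, key]
  exact hN

end KerRed

variable {L : Type*} [Field L] [DecidableEq L] [CharZero L] {W : Affine L} {x0 : L}

/-- Part A: the kernel of reduction contains no point of order `p` (p a unit). -/
theorem valuation_xi_le_one_of_torsion (hx0 : twoTors W x0 = 0) (A : ValuationSubring L)
    (hb2 : A.valuation (b2' W x0) ≤ 1) (hβ : A.valuation (beta W x0) ≤ 1)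
    (h2 : A.valuation (2 : L) = 1)
    {p : ℕ} (hp : p.Prime) (hp5 : 5 ≤ p) (hpA : A.valuation (p : L) = 1)
    {P : W.Point} (hP0 : P ≠ 0) (hP : p • P = 0) : A.valuation (xi W x0 P) ≤ 1 := by
  by_contra hcon
  rw [not_le] at hcon
  -- group theory
  have hord : addOrderOf P = p := by
    have hdvd : addOrderOf P ∣ p := addOrderOf_dvd_of_nsmul_eq_zero hP
    rcases (Nat.dvd_prime hp).mp hdvd with h | h
    · exact absurd (AddMonoid.addOrderOf_eq_one_iff.mp h) hP0
    · exact h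
  have hj : ∀ j : ℕ, 0 < j → j < p → j • P ≠ 0 := by
    intro j hj0 hjp h
    have : p ∣ j := hord ▸ addOrderOf_dvd_of_nsmul_eq_zero h
    exact absurd (Nat.le_of_dvd hj0 this) (not_le.mpr hjp)
  have hne : ∀ j : ℕ, 1 ≤ j → j + 2 < p → xi W x0 ((j + 1) • P) ≠ xi W x0 P := by
    intro j hj1 hjp h
    rcases eq_or_eq_neg_of_xi_eq (hj (j + 1) (by omega) (by omega)) hP0 h with h' | h'
    · apply hj j (by omega) (by omega)
      rw [succ_nsmul] at h'
      simpa using h'
    · apply hj (j + 2) (by omega) hjp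
      rw [succ_nsmul, h', neg_add_cancel]
  have hxne : xi W x0 P ≠ 0 := KerRed.aux_ne_zero A hcon
  have hnat : ∀ n : ℕ, A.valuation ((n : L) ^ 2) ≤ 1 := fun n =>
    (A.valuation_le_one_iff _).mpr (pow_mem (natCast_mem A n) 2)
  -- the main claim
  have claim : ∀ j : ℕ, 1 ≤ j → j + 1 < p →
      (xi W x0 (j • P) ≠ 0 ∧
        A.valuation (xi W x0 P / xi W x0 (j • P) - (j : L) ^ 2) < 1) ∧
      (xi W x0 ((j + 1) • P) ≠ 0 ∧
        A.valuation (xi W x0 P / xi W x0 ((j + 1) • P) - ((j + 1 : ℕ) : L) ^ 2) < 1) := by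
    intro j hj1
    induction j, hj1 using Nat.le_induction with
    | base =>
      intro _
      refine ⟨⟨by rwa [one_nsmul], by simp [div_self hxne]⟩, ?_⟩
      have h2P : P + P ≠ 0 := by
        have := hj 2 (by omega) (by omega)
        rwa [two_nsmul] at this
      have hF3 := xi_double hx0 hP0 h2P
      unfold fxi at hF3
      have := KerRed.aux_double A hβ hb2 hcon hF3
      have e : (1 + 1) • P = P + P := by rw [one_add_one_eq_two, two_nsmul]
      rw [e]
      refine ⟨this.1, ?_⟩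
      have e4 : (((1 + 1 : ℕ) : L)) ^ 2 = 4 := by norm_num
      rw [e4]
      exact this.2
    | succ j hj1 ih =>
      intro hjp
      obtain ⟨hCj, hCj1⟩ := ih (by omega)
      refine ⟨hCj1, ?_⟩
      have hneq := hne j hj1 (by omega)
      have hjP1 : (j + 1) • P ≠ 0 := hj (j + 1) (by omega) (by omega)
      have hF1 := xi_add_mul_xi_sub hx0 hjP1 hP0 hneq
      have hF2 := xi_add_add_xi_sub hx0 hjP1 hP0 hneq
      have eadd : (j + 1) • P + P = (j + 1 + 1) • P := (succ_nsmul P (j + 1)).symm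
      have esub : (j + 1) • P - P = j • P := by rw [succ_nsmul, add_sub_cancel_right]
      rw [eadd, esub] at hF1 hF2
      have hty : A.valuation (xi W x0 P / xi W x0 ((j + 1) • P)) ≤ 1 := by
        have : xi W x0 P / xi W x0 ((j + 1) • P) =
            (xi W x0 P / xi W x0 ((j + 1) • P) - ((j + 1 : ℕ) : L) ^ 2) +
              ((j + 1 : ℕ) : L) ^ 2 := by ring
        rw [this]
        exact Valuation.map_add_le _ hCj1.2.le (hnat _)
      obtain ⟨hU, hE⟩ := KerRed.aux_step A hβ hb2 hcon hCj1.1 hty hCj.1 hF1 hF2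
      refine ⟨hU, ?_⟩
      have : xi W x0 P / xi W x0 ((j + 1 + 1) • P) - ((j + 1 + 1 : ℕ) : L) ^ 2 =
          (xi W x0 P / xi W x0 ((j + 1 + 1) • P) + xi W x0 P / xi W x0 (j • P) -
              2 * (xi W x0 P / xi W x0 ((j + 1) • P)) - 2) -
            (xi W x0 P / xi W x0 (j • P) - (j : L) ^ 2) +
          2 * (xi W x0 P / xi W x0 ((j + 1) • P) - ((j + 1 : ℕ) : L) ^ 2) := by
        push_cast
        ring
      rw [this]
      exact Valuation.map_add_lt _ (Valuation.map_sub_lt _ hE hCj.2)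
        (KerRed.aux_small_mul A h2.le hCj1.2)
  -- conclusion
  obtain ⟨m, rfl⟩ : ∃ m, p = m + 2 := ⟨p - 2, by omega⟩
  obtain ⟨-, -, hC2⟩ := claim 1 le_rfl (by omega)
  obtain ⟨⟨-, hCm⟩, -, hCm1⟩ := claim m (by omega) (by omega)
  have em1 : (m + 1) • P = -P := by
    apply eq_neg_of_add_eq_zero_left
    rw [← succ_nsmul]
    exact hP
  have em : m • P = -((1 + 1) • P) := by
    apply eq_neg_of_add_eq_zero_left
    rw [← add_nsmul]
    exact hP
  rw [em1, xi_neg, div_self hxne] at hCm1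
  rw [em, xi_neg] at hCm
  have hm : A.valuation (m : L) < 1 := by
    have e : (1 : L) - ((m + 1 : ℕ) : L) ^ 2 = -((m : L) * ((m + 2 : ℕ) : L)) := by
      push_cast
      ring
    rw [e, Valuation.map_neg, map_mul, hpA, mul_one] at hCm1
    exact hCm1
  have hm2 : A.valuation ((m : L) - 2) < 1 := by
    have h4 := Valuation.map_sub_lt _ hC2 hCm
    have e : xi W x0 P / xi W x0 ((1 + 1) • P) - ((1 + 1 : ℕ) : L) ^ 2 -
        (xi W x0 P / xi W x0 ((1 + 1) • P) - (m : L) ^ 2) =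
        ((m : L) - 2) * ((m + 2 : ℕ) : L) := by
      push_cast
      ring
    rw [e, map_mul, hpA, mul_one] at h4
    exact h4
  have h2' : A.valuation (2 : L) < 1 := by
    have e : (2 : L) = (m : L) - ((m : L) - 2) := by ring
    rw [e]
    exact Valuation.map_sub_lt _ hm hm2
  exact absurd h2 h2'.ne

end Fermat.Agent.S05
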