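import Fermat.Agent.S05.KerRed

set_option autoImplicit false

namespace Fermat.Agent.S05

open WeierstrassCurve

namespace NonSing

variable {L : Type*} [Field L] (A : ValuationSubring L)

theorem lt_mul_le {x y : L} (hx : A.valuation x < 1) (hy : A.valuation y ≤ 1) :
    A.valuation (x * y) < 1 := by
  rw [map_mul]
  exact mul_lt_one_of_lt_of_le hx hy

theorem le_mul_le {x y : L} (hx : A.valuation x ≤ 1) (hy : A.valuation y ≤ 1) :
    A.valuation (x * y) ≤ 1 := by
  rw [map_mul]
  exact mul_le_one' hx hy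

theorem le_natCast (n : ℕ) : A.valuation (n : L) ≤ 1 := by
  rw [ValuationSubring.valuation_le_one_iff]
  exact natCast_mem A n

theorem lt_of_sq_lt {x : L} (hx : A.valuation (x ^ 2) < 1) : A.valuation x < 1 := by
  rw [map_pow] at hx
  exact (pow_lt_one_iff two_ne_zero).mp hx

theorem le_of_sq_le {x : L} (hx : A.valuation (x ^ 2) ≤ 1) : A.valuation x ≤ 1 := by
  rw [map_pow] at hx
  exact (pow_le_one_iff two_ne_zero).mp hx

theorem le_fxi {b β t : L} (hb : A.valuation b ≤ 1) (hβ : A.valuation β ≤ 1)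
    (ht : A.valuation t ≤ 1) : A.valuation (4 * t ^ 3 + b * t ^ 2 + 4 * β * t) ≤ 1 := by
  have h4 : A.valuation (4 : L) ≤ 1 := by exact_mod_cast le_natCast A 4
  have ht2 : A.valuation (t ^ 2) ≤ 1 := by rw [pow_two]; exact le_mul_le A ht ht
  have ht3 : A.valuation (t ^ 3) ≤ 1 := by rw [pow_succ]; exact le_mul_le A ht2 ht
  exact Valuation.map_add_le _ (Valuation.map_add_le _ (le_mul_le A h4 ht3) (le_mul_le A hb ht2))
    (le_mul_le A (le_mul_le A h4 hβ) ht)

end NonSing

variable {L : Type*} [Field L] [DecidableEq L] [CharZero L] {W : Affine L} {x0 : L}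

open NonSing in
/-- Part B: a `p`-torsion point with nonsingular reduction is fixed by `τ`
(`τ` is induced by a ring endomorphism `σ` acting trivially on the residue field). -/
theorem tau_eq_self_of_nonsing (hx0 : twoTors W x0 = 0) (A : ValuationSubring L)
    (hb2 : A.valuation (b2' W x0) ≤ 1) (hβ : A.valuation (beta W x0) ≤ 1)
    (h2 : A.valuation (2 : L) = 1)
    {p : ℕ} (hp : p.Prime) (hp5 : 5 ≤ p) (hpA : A.valuation (p : L) = 1)
    (σ : L →+* L) (τ : W.Point →+ W.Point)
    (hσ : ∀ a : L, A.valuation a ≤ 1 → A.valuation (σ a - a) < 1)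
    (hτ : ∀ P : W.Point, P ≠ 0 →
      τ P ≠ 0 ∧ xi W x0 (τ P) = σ (xi W x0 P) ∧ eta W (τ P) = σ (eta W P))
    {P : W.Point} (hP0 : P ≠ 0) (hP : p • P = 0)
    (hns : ¬ (A.valuation (xi W x0 P ^ 2 - beta W x0) < 1 ∧
      A.valuation (fxi W x0 (xi W x0 P)) < 1)) :
    τ P = P := by
  have htors : ∀ R : W.Point, R ≠ 0 → p • R = 0 → A.valuation (xi W x0 R) ≤ 1 :=
    fun R hR0 hR => valuation_xi_le_one_of_torsion hx0 A hb2 hβ h2 hp hp5 hpA hR0 hR
  obtain ⟨hQ0, hξQ, hηQ⟩ := hτ P hP0
  have hQ : p • τ P = 0 := by rw [← map_nsmul, hP, map_zero]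
  have hξ : A.valuation (xi W x0 P) ≤ 1 := htors P hP0 hP
  have hξ' : A.valuation (xi W x0 (τ P)) ≤ 1 := htors (τ P) hQ0 hQ
  have hw : A.valuation (xi W x0 (τ P) - xi W x0 P) < 1 := by rw [hξQ]; exact hσ _ hξ
  have hw' : A.valuation (xi W x0 P - xi W x0 (τ P)) < 1 := by
    rw [← neg_sub, Valuation.map_neg]; exact hw
  have h2' : A.valuation (2 : L) ≤ 1 := h2.le
  -- Step 1: the two points have the same `ξ`.
  have hξeq : xi W x0 P = xi W x0 (τ P) := by
    by_contra hne
    obtain ⟨hadd, hsub⟩ := add_ne_zero_of_xi_ne (W := W) (x0 := x0) hP0 hQ0 hne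
    have hU : A.valuation (xi W x0 (P + τ P)) ≤ 1 :=
      htors _ hadd (by rw [smul_add, hP, hQ, add_zero])
    have hV : A.valuation (xi W x0 (P - τ P)) ≤ 1 :=
      htors _ hsub (by rw [smul_sub, hP, hQ, sub_zero])
    have hF1 := xi_add_mul_xi_sub hx0 hP0 hQ0 hne
    have hF2 := xi_add_add_xi_sub hx0 hP0 hQ0 hne
    have hw2 : A.valuation ((xi W x0 P - xi W x0 (τ P)) ^ 2) < 1 := by
      rw [pow_two]; exact lt_mul_le A hw' hw'.le
    apply hns
    constructor
    · -- `ξ² - β ∈ m`
      have h1 : A.valuation (xi W x0 P * xi W x0 (τ P) - beta W x0) < 1 := by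
        apply lt_of_sq_lt
        rw [← hF1, mul_comm]
        exact lt_mul_le A hw2 (le_mul_le A hU hV)
      have h3 : xi W x0 P ^ 2 - beta W x0 =
          (xi W x0 P * xi W x0 (τ P) - beta W x0) -
            (xi W x0 (τ P) - xi W x0 P) * xi W x0 P := by ring
      rw [h3]
      exact Valuation.map_sub_lt _ h1 (lt_mul_le A hw hξ)
    · -- `f(ξ) ∈ m`
      have h1 : A.valuation (2 * (xi W x0 P + xi W x0 (τ P)) *
          (xi W x0 P * xi W x0 (τ P) + beta W x0) +
            b2' W x0 * (xi W x0 P * xi W x0 (τ P))) < 1 := by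
        rw [← hF2, mul_comm]
        exact lt_mul_le A hw2 (Valuation.map_add_le _ hU hV)
      have h6 : A.valuation (6 : L) ≤ 1 := by exact_mod_cast le_natCast A 6
      have hc : A.valuation (6 * xi W x0 P ^ 2 +
          2 * xi W x0 P * (xi W x0 (τ P) - xi W x0 P) + 2 * beta W x0 +
            b2' W x0 * xi W x0 P) ≤ 1 := by
        refine Valuation.map_add_le _ (Valuation.map_add_le _ (Valuation.map_add_le _ ?_ ?_) ?_) ?_
        · rw [pow_two]; exact le_mul_le A h6 (le_mul_le A hξ hξ)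
        · exact le_mul_le A (le_mul_le A h2' hξ) hw.le
        · exact le_mul_le A h2' hβ
        · exact le_mul_le A hb2 hξ
      have h3 : fxi W x0 (xi W x0 P) =
          (2 * (xi W x0 P + xi W x0 (τ P)) * (xi W x0 P * xi W x0 (τ P) + beta W x0) +
            b2' W x0 * (xi W x0 P * xi W x0 (τ P))) -
          (xi W x0 (τ P) - xi W x0 P) * (6 * xi W x0 P ^ 2 +
            2 * xi W x0 P * (xi W x0 (τ P) - xi W x0 P) + 2 * beta W x0 +
              b2' W x0 * xi W x0 P) := by
        simp only [fxi]; ring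
      rw [h3]
      exact Valuation.map_sub_lt _ h1 (lt_mul_le A hw hc)
  -- Step 2: hence `τ P = ± P`; exclude the sign.
  rcases eq_or_eq_neg_of_xi_eq (W := W) (x0 := x0) hP0 hQ0 hξeq with h | h
  · exact h.symm
  · -- `P = -τ P`
    have hτP : τ P = -P := neg_eq_iff_eq_neg.mp h.symm
    by_cases h2P : P + P = 0
    · rw [hτP]
      exact (eq_neg_of_add_eq_zero_left h2P).symm
    · exfalso
      have hη0 : eta W P ≠ 0 := fun h0 => h2P ((add_self_eq_zero_iff_eta hP0).mpr h0)
      have hηsq : eta W P ^ 2 = fxi W x0 (xi W x0 P) := eta_sq hx0 hP0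
      have hfle : A.valuation (fxi W x0 (xi W x0 P)) ≤ 1 := le_fxi A hb2 hβ hξ
      have hηle : A.valuation (eta W P) ≤ 1 := le_of_sq_le A (by rw [hηsq]; exact hfle)
      have hτη : eta W (τ P) = -eta W P := by
        rw [hτP, eta_neg]
      have h1 : A.valuation (σ (eta W P) - eta W P) < 1 := hσ _ hηle
      rw [← hηQ, hτη] at h1
      have h3 : -eta W P - eta W P = -(2 * eta W P) := by ring
      rw [h3, Valuation.map_neg, map_mul, h2, one_mul] at h1
      have hflt : A.valuation (fxi W x0 (xi W x0 P)) < 1 := by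
        rw [← hηsq, pow_two]; exact lt_mul_le A h1 h1.le
      have hunit : A.valuation (xi W x0 P ^ 2 - beta W x0) = 1 := by
        have hle : A.valuation (xi W x0 P ^ 2 - beta W x0) ≤ 1 :=
          Valuation.map_sub_le _ (by rw [pow_two]; exact le_mul_le A hξ hξ) hβ
        exact le_antisymm hle (not_lt.mp fun hlt => hns ⟨hlt, hflt⟩)
      have h2Ple : A.valuation (xi W x0 (P + P)) ≤ 1 :=
        htors _ h2P (by rw [smul_add, hP, add_zero])
      have hF3 := xi_double hx0 hP0 h2P
      have h4 : A.valuation ((xi W x0 P ^ 2 - beta W x0) ^ 2) < 1 := by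
        rw [← hF3, mul_comm]; exact lt_mul_le A hflt h2Ple
      rw [map_pow, hunit, one_pow] at h4
      exact lt_irrefl _ h4

end Fermat.Agent.S05
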