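import Fermat.Agent.S05.Defs

set_option autoImplicit false

namespace Fermat.Agent.S05

namespace OrdFun

variable {L : Type*} [Field L] {A : ValuationSubring L} (O : OrdFun A)

theorem ord_one : O.ord 1 = 0 := by
  have h := O.ord_mul 1 1 one_ne_zero one_ne_zero
  rw [mul_one] at h
  linarith

theorem ord_inv {x : L} (hx : x ≠ 0) : O.ord x⁻¹ = -O.ord x := by
  have h := O.ord_mul x x⁻¹ hx (inv_ne_zero hx)
  rw [mul_inv_cancel₀ hx, O.ord_one] at h
  linarith

theorem ord_div {x y : L} (hx : x ≠ 0) (hy : y ≠ 0) : O.ord (x / y) = O.ord x - O.ord y := by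
  rw [div_eq_mul_inv, O.ord_mul x y⁻¹ hx (inv_ne_zero hy), O.ord_inv hy]
  ring

theorem ord_pow {x : L} (hx : x ≠ 0) (n : ℕ) : O.ord (x ^ n) = n * O.ord x := by
  induction n with
  | zero => simp [O.ord_one]
  | succ n ih =>
    rw [pow_succ, O.ord_mul _ _ (pow_ne_zero n hx) hx, ih]
    push_cast
    ring

theorem ord_eq_iff {x y : L} (hx : x ≠ 0) (hy : y ≠ 0) :
    O.ord x = O.ord y ↔ A.valuation x = A.valuation y := by
  rw [le_antisymm_iff, le_antisymm_iff, O.le_iff x y hx hy, O.le_iff y x hy hx]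
  tauto

theorem ord_neg (x : L) : O.ord (-x) = O.ord x := by
  rcases eq_or_ne x 0 with rfl | hx
  · simp
  · exact (O.ord_eq_iff (neg_ne_zero.mpr hx) hx).mpr (Valuation.map_neg _ _)

theorem ord_nonneg_iff {x : L} (hx : x ≠ 0) : 0 ≤ O.ord x ↔ A.valuation x ≤ 1 := by
  have h := O.le_iff x 1 hx one_ne_zero
  rw [Valuation.map_one, O.ord_one] at h
  exact h.symm

theorem ord_lt_iff {x y : L} (hx : x ≠ 0) (hy : y ≠ 0) :
    O.ord x < O.ord y ↔ A.valuation y < A.valuation x := by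
  rw [← not_le, ← not_le, O.le_iff x y hx hy]

theorem ord_pos_iff {x : L} (hx : x ≠ 0) : 0 < O.ord x ↔ A.valuation x < 1 := by
  have h := O.ord_lt_iff one_ne_zero hx
  rw [Valuation.map_one, O.ord_one] at h
  exact h

theorem ord_eq_zero_iff {x : L} (hx : x ≠ 0) : O.ord x = 0 ↔ A.valuation x = 1 := by
  have h := O.ord_eq_iff hx one_ne_zero
  rw [Valuation.map_one, O.ord_one] at h
  exact h

theorem ord_add_of_lt {x y : L} (hx : x ≠ 0) (hy : y ≠ 0) (h : O.ord x < O.ord y) :
    x + y ≠ 0 ∧ O.ord (x + y) = O.ord x := by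
  have hv : A.valuation y < A.valuation x := (O.ord_lt_iff hx hy).mp h
  have hv' : A.valuation (x + y) = A.valuation x := Valuation.map_add_eq_of_lt_left _ hv
  have hne : x + y ≠ 0 := by
    intro h0
    rw [h0, Valuation.map_zero] at hv'
    exact hx ((Valuation.zero_iff _).mp hv'.symm)
  exact ⟨hne, (O.ord_eq_iff hne hx).mpr hv'⟩

theorem le_ord_add {x y : L} (hx : x ≠ 0) (hy : y ≠ 0) (hxy : x + y ≠ 0) :
    min (O.ord x) (O.ord y) ≤ O.ord (x + y) := by
  have h := Valuation.map_add A.valuation x y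
  rcases le_max_iff.mp h with h | h
  · exact (min_le_left _ _).trans ((O.le_iff _ _ hxy hx).mp h)
  · exact (min_le_right _ _).trans ((O.le_iff _ _ hxy hy).mp h)

end OrdFun

end Fermat.Agent.S05
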