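import Fermat.Agent.S05.Formulas
import Fermat.Agent.S05.Depth

set_option autoImplicit false

namespace Fermat.Agent.S05

open WeierstrassCurve

variable {L : Type*} [Field L] [DecidableEq L] [CharZero L] {W : Affine L} {x0 : L}

omit [CharZero L] in
/-- A nonzero point killed by an odd number is not `2`-torsion. -/
theorem SingDepth.add_self_ne_zero {p : ℕ} (hodd : ¬ 2 ∣ p) {Q : W.Point} (hQ0 : Q ≠ 0)
    (hQ : p • Q = 0) : Q + Q ≠ 0 := by
  intro h
  apply hQ0
  have h2 : 2 • Q = 0 := by rw [two_nsmul]; exact h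
  have hd2 : addOrderOf Q ∣ 2 := addOrderOf_dvd_of_nsmul_eq_zero h2
  have hdp : addOrderOf Q ∣ p := addOrderOf_dvd_of_nsmul_eq_zero hQ
  have h1 : addOrderOf Q = 1 := by
    rcases (Nat.dvd_prime Nat.prime_two).mp hd2 with h1 | h1
    · exact h1
    · exact absurd (h1 ▸ hdp) hodd
  exact AddMonoid.addOrderOf_eq_one_iff.mp h1

/-- A nonzero point killed by an odd number has `ξ ≠ 0`. -/
theorem SingDepth.xi_ne_zero (hx0 : twoTors W x0 = 0) {p : ℕ} (hodd : ¬ 2 ∣ p) {Q : W.Point}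
    (hQ0 : Q ≠ 0) (hQ : p • Q = 0) : xi W x0 Q ≠ 0 := by
  intro h
  have h1 : eta W Q ^ 2 = 0 := by
    rw [eta_sq hx0 hQ0, h]
    simp [fxi]
  have h2 : eta W Q = 0 := by simpa using h1
  exact SingDepth.add_self_ne_zero hodd hQ0 hQ ((add_self_eq_zero_iff_eta hQ0).mpr h2)

/-- Part C1: the folded-depth induction along the multiples of a `p`-torsion point `P` of
depth `0 < c < h` gives `p * c ∈ 2 h ℤ`. -/
theorem exists_int_mul_ord (hx0 : twoTors W x0 = 0) (A : ValuationSubring L) (O : OrdFun A)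
    (hb2 : A.valuation (b2' W x0) = 1) (hβ0 : beta W x0 ≠ 0)
    (h2 : A.valuation (2 : L) = 1)
    {p : ℕ} (hp : p.Prime) (hp5 : 5 ≤ p)
    {P : W.Point} (hP0 : P ≠ 0) (hP : p • P = 0)
    (hc0 : 0 < O.ord (xi W x0 P)) (hch : O.ord (xi W x0 P) < O.ord (beta W x0)) :
    ∃ k : ℤ, (p : ℚ) * O.ord (xi W x0 P) = 2 * O.ord (beta W x0) * k := by
  classical
  have hodd : ¬ 2 ∣ p := by
    intro h
    have := (Nat.prime_dvd_prime_iff_eq Nat.prime_two hp).mp h
    omega
  -- every multiple of `P` is `p`-torsion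
  have htors : ∀ m : ℕ, p • (m • P) = 0 := by
    intro m
    rw [smul_comm, hP, smul_zero]
  have hxi : ∀ Q : W.Point, Q ≠ 0 → p • Q = 0 → xi W x0 Q ≠ 0 :=
    fun Q hQ0 hQ => SingDepth.xi_ne_zero hx0 hodd hQ0 hQ
  have : Fact p.Prime := ⟨hp⟩
  have hord : addOrderOf P = p := addOrderOf_eq_prime hP hP0
  have hmul : ∀ m : ℕ, m • P = 0 ↔ p ∣ m := by
    intro m
    rw [← hord]
    exact (addOrderOf_dvd_iff_nsmul_eq_zero).symm
  have hPP : P + P ≠ 0 := SingDepth.add_self_ne_zero hodd hP0 hP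
  have hPPtors : p • (P + P) = 0 := by rw [smul_add, hP, add_zero]
  have hxiPP : xi W x0 (P + P) ≠ 0 := hxi _ hPP hPPtors
  have hsP : xi W x0 P ≠ 0 := hxi _ hP0 hP
  -- depth of `P`
  have hdepP : depQ (O.ord (beta W x0)) (O.ord (xi W x0 P)) = O.ord (xi W x0 P) := by
    unfold depQ
    rw [min_eq_left hch.le, max_eq_right hc0.le]
  -- depth of `2P`
  have hdepPP : depQ (O.ord (beta W x0)) (O.ord (xi W x0 (P + P))) =
      foldQ (O.ord (beta W x0)) (O.ord (xi W x0 P) + O.ord (xi W x0 P)) := by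
    have hdbl := xi_double hx0 hP0 hPP
    unfold fxi at hdbl
    exact depth_double O hsP hxiPP hβ0 hb2 h2 hdbl hc0 hch
  refine fold_induction hc0 hch (p := p)
    (fun m => if m • P = 0 then 0 else
      depQ (O.ord (beta W x0)) (O.ord (xi W x0 (m • P)))) ?_ ?_ ?_ ?_
  · simp
  · simp only [one_nsmul, if_neg hP0]
    exact hdepP
  · intro m hm1 hmp
    obtain ⟨n, rfl⟩ : ∃ n, m = n + 1 := ⟨m - 1, by omega⟩
    have hR0 : (n + 1) • P ≠ 0 := by
      rw [Ne, hmul]
      intro hdvd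
      have := Nat.le_of_dvd (by omega) hdvd
      omega
    set R : W.Point := (n + 1) • P with hRdef
    have hRtors : p • R = 0 := htors _
    have e1 : (n + 1 + 1) • P = R + P := by rw [hRdef, succ_nsmul P (n + 1)]
    have e2 : (n + 1 - 1) • P = R - P := by
      rw [hRdef, Nat.add_sub_cancel, succ_nsmul, add_sub_cancel_right]
    simp only [e1, e2, if_neg hR0]
    by_cases hne : xi W x0 R = xi W x0 P
    · -- special position: `R = ± P`
      rcases eq_or_eq_neg_of_xi_eq hR0 hP0 hne with hRP | hRP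
      · left
        rw [hRP, sub_self, if_neg hPP, if_pos rfl, hdepP, sub_self, abs_zero]
        exact ⟨hdepPP, rfl⟩
      · right
        have e3 : -P - P = -(P + P) := by abel
        have hnPP : -(P + P) ≠ 0 := neg_ne_zero.mpr hPP
        rw [hRP, neg_add_cancel, if_pos rfl, e3, if_neg hnPP, xi_neg, xi_neg, hdepP, sub_self,
          abs_zero]
        exact ⟨rfl, hdepPP⟩
    · -- generic position
      obtain ⟨hadd, hsub⟩ := add_ne_zero_of_xi_ne (x0 := x0) hR0 hP0 hne
      rw [if_neg hadd, if_neg hsub]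
      have haddtors : p • (R + P) = 0 := by rw [smul_add, hRtors, hP, add_zero]
      have hsubtors : p • (R - P) = 0 := by rw [smul_sub, hRtors, hP, sub_zero]
      exact depth_step O (hxi _ hR0 hRtors) hsP (hxi _ hadd haddtors) (hxi _ hsub hsubtors) hβ0
        hb2 h2 hne (xi_add_mul_xi_sub hx0 hR0 hP0 hne) (xi_add_add_xi_sub hx0 hR0 hP0 hne)
        hc0 hch
  · simp only [if_pos hP]

end Fermat.Agent.S05
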