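import Fermat.Agent.S05.NonSing
import Fermat.Agent.S05.SingDepth

set_option autoImplicit false

namespace Fermat.Agent.S05

open WeierstrassCurve

namespace Sing

/-- An element killed by `2` and by an odd prime is zero. -/
theorem eq_zero_of_add_self_of_nsmul {G : Type*} [AddCommGroup G] {p : ℕ} (hp : p.Prime)
    (hp5 : 5 ≤ p) {x : G} (h2 : x + x = 0) (hpx : p • x = 0) : x = 0 := by
  obtain ⟨k, hk⟩ := hp.odd_of_ne_two (by omega)
  rw [hk, add_smul, mul_comm, mul_smul, two_smul, h2, smul_zero, zero_add, one_smul] at hpx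
  exact hpx

section

variable {L : Type*} [Field L] {A : ValuationSubring L} (O : OrdFun A)

/-- If `ord z` is a natural multiple of `ord π` and `σ` fixes `π` and is trivial on the residue
field, then `σ z` is a first-order perturbation of `z`. -/
theorem sigma_close (σ : L →+* L)
    (hσ : ∀ a : L, A.valuation a ≤ 1 → A.valuation (σ a - a) < 1)
    {π : L} (hσπ : σ π = π) (hπ0 : π ≠ 0) {z : L} (hz0 : z ≠ 0) (n : ℕ)
    (hz : O.ord z = n * O.ord π) :
    (σ z ≠ 0 ∧ O.ord (σ z) = O.ord z) ∧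
      (σ z = z ∨ (σ z - z ≠ 0 ∧ O.ord z < O.ord (σ z - z))) := by
  have hπn : π ^ n ≠ 0 := pow_ne_zero _ hπ0
  set w := z / π ^ n with hw
  have hw0 : w ≠ 0 := div_ne_zero hz0 hπn
  have hzw : z = π ^ n * w := by rw [hw]; field_simp
  have hordw : O.ord w = 0 := by
    rw [hw, O.ord_div hz0 hπn, O.ord_pow hπ0, hz, sub_self]
  have hw1 : A.valuation w = 1 := (O.ord_eq_zero_iff hw0).mp hordw
  have hd : A.valuation (σ w - w) < 1 := hσ w hw1.le
  have hσw1 : A.valuation (σ w) = 1 := by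
    have h : σ w = w + (σ w - w) := by ring
    rw [h, A.valuation.map_add_eq_of_lt_left (by rw [hw1]; exact hd), hw1]
  have hσw0 : σ w ≠ 0 := by
    rintro h; rw [h, map_zero] at hσw1; exact zero_ne_one hσw1
  have hσz : σ z = π ^ n * σ w := by
    rw [hzw, map_mul, map_pow, hσπ]
  have hπnord : O.ord (π ^ n) = O.ord z := by rw [O.ord_pow hπ0, hz]
  refine ⟨⟨?_, ?_⟩, ?_⟩
  · rw [hσz]; exact mul_ne_zero hπn hσw0
  · rw [hσz, O.ord_mul _ _ hπn hσw0, (O.ord_eq_zero_iff hσw0).mpr hσw1, add_zero, hπnord]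
  · by_cases h : σ w = w
    · left; rw [hσz, h, ← hzw]
    · right
      have hd0 : σ w - w ≠ 0 := sub_ne_zero.mpr h
      have hdiff : σ z - z = π ^ n * (σ w - w) := by
        rw [hσz, mul_sub, ← hzw]
      refine ⟨by rw [hdiff]; exact mul_ne_zero hπn hd0, ?_⟩
      rw [hdiff, O.ord_mul _ _ hπn hd0, hπnord]
      have := (O.ord_pos_iff hd0).mpr hd
      linarith

end

variable {L : Type*} [Field L] [DecidableEq L] [CharZero L] {W : Affine L} {x0 : L}

/-- Nonzero `p`-torsion points have nonzero `ξ`. -/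
theorem xi_ne_zero (hx0 : twoTors W x0 = 0) {p : ℕ} (hp : p.Prime) (hp5 : 5 ≤ p)
    {Q : W.Point} (hQ0 : Q ≠ 0) (hQ : p • Q = 0) : xi W x0 Q ≠ 0 := by
  intro h
  have h1 := eta_sq hx0 hQ0
  rw [h] at h1
  have h2 : eta W Q = 0 := by
    have : eta W Q ^ 2 = 0 := by rw [h1]; simp [fxi]
    exact pow_eq_zero_iff two_ne_zero |>.mp this
  have h3 : Q + Q = 0 := (add_self_eq_zero_iff_eta hQ0).mpr h2
  exact hQ0 (eq_zero_of_add_self_of_nsmul hp hp5 h3 hQ)

end Sing

variable {L : Type*} [Field L] [DecidableEq L] [CharZero L] {W : Affine L} {x0 : L}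

/-- Part C: in the multiplicative case with `p ∣ v(β)`, a `p`-torsion point with singular
reduction (`|ξ_P| < 1`) is fixed by `τ`. -/
theorem tau_eq_self_of_sing (hx0 : twoTors W x0 = 0) (A : ValuationSubring L) (O : OrdFun A)
    (hb2 : A.valuation (b2' W x0) = 1) (hβ : A.valuation (beta W x0) < 1)
    (h2 : A.valuation (2 : L) = 1)
    {p : ℕ} (hp : p.Prime) (hp5 : 5 ≤ p) (hpA : A.valuation (p : L) = 1)
    (σ : L →+* L) (τ : W.Point →+ W.Point)
    (hσ : ∀ a : L, A.valuation a ≤ 1 → A.valuation (σ a - a) < 1)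
    (hτ : ∀ P : W.Point, P ≠ 0 →
      τ P ≠ 0 ∧ xi W x0 (τ P) = σ (xi W x0 P) ∧ eta W (τ P) = σ (eta W P))
    (hπ : ∃ (π u : L) (e : ℕ), σ π = π ∧ π ≠ 0 ∧ A.valuation u = 1 ∧
      beta W x0 = π ^ (p * e) * u)
    {P : W.Point} (hP0 : P ≠ 0) (hP : p • P = 0) (hsing : A.valuation (xi W x0 P) < 1) :
    τ P = P := by
  obtain ⟨π, u, e, hσπ, hπ0, hu, hβeq⟩ := hπ
  have hu0 : u ≠ 0 := by
    rintro rfl; rw [map_zero] at hu; exact zero_ne_one hu
  have hβ0 : beta W x0 ≠ 0 := by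
    rw [hβeq]; exact mul_ne_zero (pow_ne_zero _ hπ0) hu0
  have htors : ∀ R : W.Point, R ≠ 0 → p • R = 0 → A.valuation (xi W x0 R) ≤ 1 :=
    fun R hR0 hR => valuation_xi_le_one_of_torsion hx0 A hb2.le hβ.le h2 hp hp5 hpA hR0 hR
  have hxi0 : ∀ R : W.Point, R ≠ 0 → p • R = 0 → xi W x0 R ≠ 0 :=
    fun R hR0 hR => Sing.xi_ne_zero hx0 hp hp5 hR0 hR
  have hs0 : xi W x0 P ≠ 0 := hxi0 P hP0 hP
  have hc0 : 0 < O.ord (xi W x0 P) := (O.ord_pos_iff hs0).mpr hsing
  have hh0 : 0 < O.ord (beta W x0) := (O.ord_pos_iff hβ0).mpr hβ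
  obtain ⟨hQ0, hξQ, hηQ⟩ := hτ P hP0
  have hQ : p • τ P = 0 := by rw [← map_nsmul, hP, map_zero]
  have h2P : P + P ≠ 0 := fun h => hP0 (Sing.eq_zero_of_add_self_of_nsmul hp hp5 h hP)
  by_cases hdeep : O.ord (beta W x0) ≤ O.ord (xi W x0 P)
  · -- deep points: the double has nonsingular reduction
    have hF3 := xi_double hx0 hP0 h2P
    have h2Ptors : p • (P + P) = 0 := by rw [smul_add, hP, add_zero]
    have hU0 : xi W x0 (P + P) ≠ 0 := hxi0 _ h2P h2Ptors
    have hUle : A.valuation (xi W x0 (P + P)) ≤ 1 := htors _ h2P h2Ptors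
    have hordU : O.ord (xi W x0 (P + P)) ≤ 0 :=
      ord_nonpos_of_deep O hU0 hβ0 hb2.le h2 (by simpa [fxi] using hF3) hh0 (Or.inr hdeep)
    have hU1 : A.valuation (xi W x0 (P + P)) = 1 := by
      refine le_antisymm hUle (not_lt.mp fun hlt => ?_)
      exact absurd ((O.ord_pos_iff hU0).mpr hlt) (not_lt.mpr hordU)
    have hfix : τ (P + P) = P + P := by
      refine tau_eq_self_of_nonsing hx0 A hb2.le hβ.le h2 hp hp5 hpA σ τ hσ hτ h2P h2Ptors ?_
      rintro ⟨h1, -⟩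
      have h3 : A.valuation (xi W x0 (P + P) ^ 2) = 1 := by rw [map_pow, hU1, one_pow]
      have h4 : A.valuation (xi W x0 (P + P) ^ 2 - beta W x0) = 1 := by
        rw [A.valuation.map_sub_eq_of_lt_left (by rw [h3]; exact hβ), h3]
      rw [h4] at h1
      exact lt_irrefl _ h1
    have hD2 : (τ P - P) + (τ P - P) = 0 := by
      rw [map_add] at hfix
      have h : (τ P - P) + (τ P - P) = (τ P + τ P) - (P + P) := by abel
      rw [h, hfix, sub_self]
    have hDp : p • (τ P - P) = 0 := by rw [smul_sub, hQ, hP, sub_zero]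
    exact sub_eq_zero.mp (Sing.eq_zero_of_add_self_of_nsmul hp hp5 hD2 hDp)
  · -- middle points
    rw [not_le] at hdeep
    obtain ⟨k, hk⟩ := exists_int_mul_ord hx0 A O hb2 hβ0 h2 hp hp5 hP0 hP hc0 hdeep
    have hordu : O.ord u = 0 := (O.ord_eq_zero_iff hu0).mpr hu
    have hh : O.ord (beta W x0) = ((p * e : ℕ) : ℚ) * O.ord π := by
      rw [hβeq, O.ord_mul _ _ (pow_ne_zero _ hπ0) hu0, O.ord_pow hπ0, hordu, add_zero]
    have hp0 : (0 : ℚ) < p := by exact_mod_cast hp.pos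
    have hordπ : 0 < O.ord π := by
      rw [hh] at hh0
      have hpe : (0 : ℚ) ≤ ((p * e : ℕ) : ℚ) := by positivity
      by_contra hneg
      rw [not_lt] at hneg
      nlinarith
    -- `ord ξ_P = (2 e k) ord π`
    have hc : O.ord (xi W x0 P) = ((2 * e * k : ℤ) : ℚ) * O.ord π := by
      have h1 : (p : ℚ) * O.ord (xi W x0 P) = (p : ℚ) * (((2 * e * k : ℤ) : ℚ) * O.ord π) := by
        rw [hk, hh]; push_cast; ring
      exact mul_left_cancel₀ hp0.ne' h1
    have hn0 : (0 : ℤ) ≤ 2 * e * k := by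
      by_contra hneg
      rw [not_le] at hneg
      have : ((2 * e * k : ℤ) : ℚ) < 0 := by exact_mod_cast hneg
      nlinarith
    obtain ⟨n, hn⟩ := Int.eq_ofNat_of_zero_le hn0
    have hcn : O.ord (xi W x0 P) = (n : ℚ) * O.ord π := by
      rw [hc, hn]; push_cast; ring
    -- `σ ξ_P` is close to `ξ_P`
    obtain ⟨⟨hr0, hrc⟩, hclose⟩ := Sing.sigma_close O σ hσ hσπ hπ0 hs0 n hcn
    have hξeq : xi W x0 P = xi W x0 (τ P) := by
      by_contra hne
      have hne' : xi W x0 (τ P) ≠ xi W x0 P := fun h => hne h.symm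
      obtain ⟨hadd, hsub⟩ := add_ne_zero_of_xi_ne (W := W) (x0 := x0) hQ0 hP0 hne'
      have haddt : p • (τ P + P) = 0 := by rw [smul_add, hP, hQ, add_zero]
      have hsubt : p • (τ P - P) = 0 := by rw [smul_sub, hP, hQ, sub_zero]
      have hU0 := hxi0 _ hadd haddt
      have hV0 := hxi0 _ hsub hsubt
      have hF1 := xi_add_mul_xi_sub hx0 hQ0 hP0 hne'
      have hF2 := xi_add_add_xi_sub hx0 hQ0 hP0 hne'
      have hcl : O.ord (xi W x0 P) < O.ord (xi W x0 (τ P) - xi W x0 P) := by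
        rcases hclose with h | ⟨-, h⟩
        · exact absurd (hξQ.trans h) hne'
        · rw [hξQ]; exact h
      rcases neg_ord_of_close O (hξQ ▸ hr0) hs0 hU0 hV0 hβ0 hb2 h2 hne' hF1 hF2 hc0 hdeep
        (by rw [hξQ]; exact hrc) hcl with h | h
      · exact absurd ((O.ord_nonneg_iff hU0).mpr (htors _ hadd haddt)) (not_le.mpr h)
      · exact absurd ((O.ord_nonneg_iff hV0).mpr (htors _ hsub hsubt)) (not_le.mpr h)
    rcases eq_or_eq_neg_of_xi_eq (W := W) (x0 := x0) hP0 hQ0 hξeq with h | h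
    · exact h.symm
    · exfalso
      have hτP : τ P = -P := neg_eq_iff_eq_neg.mp h.symm
      have hη0 : eta W P ≠ 0 := fun h0 => h2P ((add_self_eq_zero_iff_eta hP0).mpr h0)
      have hηsq : eta W P ^ 2 = fxi W x0 (xi W x0 P) := eta_sq hx0 hP0
      have hση : σ (eta W P) = -eta W P := by rw [← hηQ, hτP, eta_neg]
      have h20 : (2 : L) ≠ 0 := two_ne_zero
      have hord2 : O.ord (2 : L) = 0 := (O.ord_eq_zero_iff h20).mpr h2
      have h40 : (4 : L) ≠ 0 := by norm_num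
      have hord4 : O.ord (4 : L) = 0 := by
        have h : (4 : L) = 2 * 2 := by norm_num
        rw [h, O.ord_mul _ _ h20 h20, hord2, add_zero]
      have hb0 : b2' W x0 ≠ 0 := by
        rintro h0; rw [h0, map_zero] at hb2; exact zero_ne_one hb2
      have hordb : O.ord (b2' W x0) = 0 := (O.ord_eq_zero_iff hb0).mpr hb2
      -- `ord (f ξ) = 2 ord ξ`
      have hx : b2' W x0 * xi W x0 P ^ 2 ≠ 0 := mul_ne_zero hb0 (pow_ne_zero _ hs0)
      have hy : 4 * xi W x0 P ^ 3 ≠ 0 := mul_ne_zero h40 (pow_ne_zero _ hs0)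
      have hz : 4 * beta W x0 * xi W x0 P ≠ 0 := mul_ne_zero (mul_ne_zero h40 hβ0) hs0
      have hox : O.ord (b2' W x0 * xi W x0 P ^ 2) = 2 * O.ord (xi W x0 P) := by
        rw [O.ord_mul _ _ hb0 (pow_ne_zero _ hs0), hordb, O.ord_pow hs0]; push_cast; ring
      have hoy : O.ord (4 * xi W x0 P ^ 3) = 3 * O.ord (xi W x0 P) := by
        rw [O.ord_mul _ _ h40 (pow_ne_zero _ hs0), hord4, O.ord_pow hs0]; push_cast; ring
      have hoz : O.ord (4 * beta W x0 * xi W x0 P) =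
          O.ord (beta W x0) + O.ord (xi W x0 P) := by
        rw [O.ord_mul _ _ (mul_ne_zero h40 hβ0) hs0, O.ord_mul _ _ h40 hβ0, hord4, zero_add]
      obtain ⟨hxy0, hoxy⟩ := O.ord_add_of_lt hx hy (by rw [hox, hoy]; linarith)
      obtain ⟨hf0, hof⟩ := O.ord_add_of_lt hxy0 hz (by rw [hoxy, hox, hoz]; linarith)
      have hfeq : fxi W x0 (xi W x0 P) =
          b2' W x0 * xi W x0 P ^ 2 + 4 * xi W x0 P ^ 3 + 4 * beta W x0 * xi W x0 P := by
        simp only [fxi]; ring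
      have hordη : O.ord (eta W P) = (n : ℚ) * O.ord π := by
        have h1 : O.ord (eta W P ^ 2) = 2 * O.ord (xi W x0 P) := by
          rw [hηsq, hfeq, hof, hoxy, hox]
        rw [O.ord_pow hη0] at h1
        push_cast at h1
        linarith
      obtain ⟨-, hcloseη⟩ := Sing.sigma_close O σ hσ hσπ hπ0 hη0 n hordη
      rcases hcloseη with h | ⟨-, h⟩
      · rw [hση] at h
        have : (2 : L) * eta W P = 0 := by linear_combination -h
        exact hη0 ((mul_eq_zero.mp this).resolve_left h20)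
      · rw [hση] at h
        have h3 : -eta W P - eta W P = -(2 * eta W P) := by ring
        rw [h3, O.ord_neg, O.ord_mul _ _ h20 hη0, hord2, zero_add] at h
        exact lt_irrefl _ h

end Fermat.Agent.S05
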